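import Fermat.Agent.MU.F4.Glob.NormDefs

section MergeWrap_F4_Glob_Approx -- from F4/Glob/Approx.lean

/-!
# F4 / GLOB : weak approximation (multiplicative form, finite places)

`exists_approx`: for a finite set `S` of primes of `F`, elements `a v ∈ Fˣ` and a precision `k`
there is `y ∈ Fˣ` with `y / a v ∈ U_v^{(k+1)}` for every `v ∈ S`.
-/

set_option autoImplicit false

open NumberField IsDedekindDomain

namespace Fermat.Agent.F4G

variable {F : Type*} [Field F] [NumberField F]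

/-- Chinese remainder theorem with valuations. -/
lemma exists_int_approx (S : Finset (HeightOneSpectrum (𝓞 F)))
    (b : HeightOneSpectrum (𝓞 F) → 𝓞 F) (e : HeightOneSpectrum (𝓞 F) → ℕ) :
    ∃ y : 𝓞 F, ∀ v ∈ S, v.intValuation (y - b v) ≤ WithZero.exp (-(e v : ℤ)) := by
  obtain ⟨y, hy⟩ := IsDedekindDomain.exists_forall_sub_mem_ideal (s := S)
    (fun v : HeightOneSpectrum (𝓞 F) => v.asIdeal) e (fun v _ => v.prime)
    (fun v _ v' _ hne h => hne (HeightOneSpectrum.ext h)) (fun v => b v.1)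
  exact ⟨y, fun v hv => (v.intValuation_le_pow_iff_mem _ _).mpr (hy v hv)⟩

/-- **Weak approximation**, multiplicative form. -/
theorem exists_approx (S : Finset (HeightOneSpectrum (𝓞 F)))
    (a : HeightOneSpectrum (𝓞 F) → Fˣ) (k : ℕ) :
    ∃ y : Fˣ, ∀ v ∈ S, y / a v ∈ oneModSubgroup F v k := by
  classical
  rcases S.eq_empty_or_nonempty with hS | ⟨v₀, hv₀⟩
  · exact ⟨1, fun v hv => by simp [hS] at hv⟩
  -- a common denominator
  obtain ⟨⟨d, hd⟩, hdS⟩ := IsLocalization.exist_integer_multiples_of_finset (nonZeroDivisors (𝓞 F))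
    (S.image fun v => ((a v : Fˣ) : F))
  have hd0 : d ≠ 0 := nonZeroDivisors.ne_zero hd
  have hdF : (d : F) ≠ 0 := by
    simpa using (RingOfIntegers.coe_ne_zero_iff (K := F)).mpr hd0
  have hb : ∀ v ∈ S, ∃ b : 𝓞 F, (b : F) = (d : F) * (a v : F) := by
    intro v hv
    obtain ⟨b, hb⟩ := hdS _ (Finset.mem_image_of_mem _ hv)
    refine ⟨b, ?_⟩
    have : (b : F) = algebraMap (𝓞 F) F b := rfl
    rw [this, hb, Algebra.smul_def]
  choose! b hb using hb
  have hb0 : ∀ v ∈ S, (b v : F) ≠ 0 := fun v hv => by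
    rw [hb v hv]; exact mul_ne_zero hdF (a v).ne_zero
  have hbv : ∀ v ∈ S, v.valuation F (b v : F) ≠ 0 := fun v hv =>
    (Valuation.ne_zero_iff _).mpr (hb0 v hv)
  -- the exponents
  let e : HeightOneSpectrum (𝓞 F) → ℕ := fun v =>
    k + 1 + (WithZero.log (v.valuation F (b v : F))).natAbs
  have he : ∀ v ∈ S, WithZero.exp (-(e v : ℤ)) <
      WithZero.exp (-(k : ℤ)) * v.valuation F (b v : F) := by
    intro v hv
    conv_rhs => rw [← WithZero.exp_log (hbv v hv), ← WithZero.exp_add]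
    rw [WithZero.exp_lt_exp]
    simp only [e, Nat.cast_add, Nat.cast_one]
    omega
  obtain ⟨y₀, hy₀⟩ := exists_int_approx S b e
  have hy₀' : ∀ v ∈ S, v.valuation F ((y₀ : F) - (b v : F)) <
      WithZero.exp (-(k : ℤ)) * v.valuation F (b v : F) := by
    intro v hv
    have h1 := hy₀ v hv
    have h2 : v.valuation F ((y₀ : F) - (b v : F)) = v.intValuation (y₀ - b v) := by
      rw [← HeightOneSpectrum.valuation_of_algebraMap (K := F)]
      rfl
    rw [h2]
    exact lt_of_le_of_lt h1 (he v hv)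
  have hle : WithZero.exp (-(k : ℤ)) ≤ (1 : WithZero (Multiplicative ℤ)) := by
    rw [← WithZero.exp_zero]
    exact WithZero.exp_le_exp.mpr (by omega)
  have hy₀F : (y₀ : F) ≠ 0 := by
    intro h0
    have h := hy₀' v₀ hv₀
    rw [h0, zero_sub, Valuation.map_neg] at h
    have h2 : WithZero.exp (-(k : ℤ)) * v₀.valuation F (b v₀ : F) ≤ v₀.valuation F (b v₀ : F) := by
      calc WithZero.exp (-(k : ℤ)) * v₀.valuation F (b v₀ : F)
          ≤ 1 * v₀.valuation F (b v₀ : F) := mul_le_mul' hle le_rfl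
        _ = _ := one_mul _
    exact lt_irrefl _ (lt_of_lt_of_le h h2)
  refine ⟨Units.mk0 ((y₀ : F) / (d : F)) (div_ne_zero hy₀F hdF), fun v hv => ?_⟩
  rw [mem_oneModSubgroup]
  have e1 : ((Units.mk0 ((y₀ : F) / (d : F)) (div_ne_zero hy₀F hdF) / a v : Fˣ) : F) - 1
      = ((y₀ : F) - (b v : F)) / (b v : F) := by
    rw [Units.val_div_eq_div_val, Units.val_mk0, hb v hv]
    have := (a v).ne_zero
    field_simp
  rw [e1, map_div₀]
  rw [div_lt_iff₀ (zero_lt_iff.mpr (hbv v hv))]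
  exact hy₀' v hv

end Fermat.Agent.F4G
end MergeWrap_F4_Glob_Approx
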