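import Fermat.Agent.MU.S17.W.Final

section MergeWrap_F4_Glob_NormDefs -- from F4/Glob/NormDefs.lean

/-!
# F4 / GLOB : local norm conditions at finite level — definitions

Setting: `M/F` an extension of number fields, `v` a prime of `F`.  "Local" conditions are congruence
conditions on the multiplicative valuation `v.valuation F` (as in `S14/SI`): no completions.

* `oneModSubgroup F v k` : the elements `x` of `Fˣ` with `v (x - 1) < exp (-k)`   (`U_v^{(k+1)}`);
* `localNormGroup F M v k` : `N(Mˣ) · U_v^{(k+1)}`, the local norms at `v` to precision `k`;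
* `localNormsAt F M S k` : the elements which are local norms to precision `k` at every `v ∈ S`.
-/

set_option autoImplicit false

open NumberField IsDedekindDomain

namespace Fermat.Agent.F4G

open Fermat.Agent.S14SI

variable (F : Type*) [Field F] [NumberField F]

/-- `U_v^{(k+1)}`: the elements `x` of `Fˣ` with `v (x - 1) < exp (-k)`. -/
def oneModSubgroup (v : HeightOneSpectrum (𝓞 F)) (k : ℕ) : Subgroup Fˣ where
  carrier := {x | v.valuation F ((x : F) - 1) < WithZero.exp (-(k : ℤ))}
  one_mem' := by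
    show v.valuation F (((1 : Fˣ) : F) - 1) < _
    simp
  mul_mem' := by
    intro a b ha hb
    have ha' : v.valuation F ((a : F) - 1) < WithZero.exp (-(k : ℤ)) := ha
    have hb' : v.valuation F ((b : F) - 1) < WithZero.exp (-(k : ℤ)) := hb
    show v.valuation F (((a * b : Fˣ) : F) - 1) < _
    have hle : WithZero.exp (-(k : ℤ)) ≤ (1 : WithZero (Multiplicative ℤ)) := by
      rw [← WithZero.exp_zero]
      exact WithZero.exp_le_exp.mpr (by omega)
    have e : ((a * b : Fˣ) : F) - 1
        = ((a : F) - 1) * ((b : F) - 1) + ((a : F) - 1) + ((b : F) - 1) := by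
      rw [Units.val_mul]; ring
    have key : v.valuation F (((a : F) - 1) * ((b : F) - 1)) < WithZero.exp (-(k : ℤ)) := by
      rw [Valuation.map_mul]
      calc v.valuation F ((a : F) - 1) * v.valuation F ((b : F) - 1)
          ≤ v.valuation F ((a : F) - 1) * 1 := mul_le_mul' le_rfl (hb'.le.trans hle)
        _ = v.valuation F ((a : F) - 1) := mul_one _
        _ < _ := ha'
    rw [e]
    refine lt_of_le_of_lt (Valuation.map_add_le_max' _ _ _) (max_lt ?_ hb')
    exact lt_of_le_of_lt (Valuation.map_add_le_max' _ _ _) (max_lt key ha')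
  inv_mem' := by
    intro a ha
    have ha' : v.valuation F ((a : F) - 1) < WithZero.exp (-(k : ℤ)) := ha
    show v.valuation F (((a⁻¹ : Fˣ) : F) - 1) < _
    have hle : WithZero.exp (-(k : ℤ)) ≤ (1 : WithZero (Multiplicative ℤ)) := by
      rw [← WithZero.exp_zero]
      exact WithZero.exp_le_exp.mpr (by omega)
    have hlt : v.valuation F ((a : F) - 1) < 1 := lt_of_lt_of_le ha' hle
    have ha1 : v.valuation F (a : F) = 1 := by
      have : (a : F) = 1 + ((a : F) - 1) := by ring
      rw [this]
      exact Valuation.map_one_add_of_lt _ hlt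
    have e : ((a⁻¹ : Fˣ) : F) - 1 = -((a : F) - 1) * (a : F)⁻¹ := by
      rw [Units.val_inv_eq_inv_val]
      field_simp
      ring
    rw [e, map_mul, map_inv₀, ha1, inv_one, mul_one, Valuation.map_neg]
    exact ha'

variable {F} in
lemma mem_oneModSubgroup {v : HeightOneSpectrum (𝓞 F)} {k : ℕ} {x : Fˣ} :
    x ∈ oneModSubgroup F v k ↔ v.valuation F ((x : F) - 1) < WithZero.exp (-(k : ℤ)) := Iff.rfl

variable {F} in
/-- The elements of `U_v^{(k+1)}` are units at `v`. -/
lemma valuation_eq_one_of_mem_oneModSubgroup {v : HeightOneSpectrum (𝓞 F)} {k : ℕ} {x : Fˣ}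
    (hx : x ∈ oneModSubgroup F v k) : v.valuation F (x : F) = 1 := by
  have hle : WithZero.exp (-(k : ℤ)) ≤ (1 : WithZero (Multiplicative ℤ)) := by
    rw [← WithZero.exp_zero]
    exact WithZero.exp_le_exp.mpr (by omega)
  have hlt : v.valuation F ((x : F) - 1) < 1 := lt_of_lt_of_le hx hle
  have : (x : F) = 1 + ((x : F) - 1) := by ring
  rw [this]
  exact Valuation.map_one_add_of_lt _ hlt

variable {F} in
lemma oneModSubgroup_anti (v : HeightOneSpectrum (𝓞 F)) {k k' : ℕ} (h : k ≤ k') :
    oneModSubgroup F v k' ≤ oneModSubgroup F v k := by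
  intro x hx
  have hx' : v.valuation F ((x : F) - 1) < WithZero.exp (-(k' : ℤ)) := hx
  refine lt_of_lt_of_le hx' ?_
  exact WithZero.exp_le_exp.mpr (by omega)

variable (M : Type*) [Field M] [Algebra F M]

/-- The local norms at `v` to precision `k`: `N(Mˣ) · U_v^{(k+1)}`. -/
noncomputable def localNormGroup (v : HeightOneSpectrum (𝓞 F)) (k : ℕ) : Subgroup Fˣ :=
  (normUnits F M).range ⊔ oneModSubgroup F v k

variable {F M} in
lemma mem_localNormGroup {v : HeightOneSpectrum (𝓞 F)} {k : ℕ} {y : Fˣ} :
    y ∈ localNormGroup F M v k ↔ ∃ z : Mˣ, y / normUnits F M z ∈ oneModSubgroup F v k := by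
  unfold localNormGroup
  rw [Subgroup.mem_sup]
  constructor
  · rintro ⟨_, ⟨z, rfl⟩, u, hu, rfl⟩
    exact ⟨z, by simpa using hu⟩
  · rintro ⟨z, hz⟩
    exact ⟨normUnits F M z, ⟨z, rfl⟩, y / normUnits F M z, hz, by simp⟩

variable {F M} in
lemma normUnits_mem_localNormGroup (v : HeightOneSpectrum (𝓞 F)) (k : ℕ) (z : Mˣ) :
    normUnits F M z ∈ localNormGroup F M v k :=
  Subgroup.mem_sup_left ⟨z, rfl⟩

variable {F M} in
lemma oneModSubgroup_le_localNormGroup (v : HeightOneSpectrum (𝓞 F)) (k : ℕ) :
    oneModSubgroup F v k ≤ localNormGroup F M v k := le_sup_right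

variable {F M} in
lemma localNormGroup_anti (v : HeightOneSpectrum (𝓞 F)) {k k' : ℕ} (h : k ≤ k') :
    localNormGroup F M v k' ≤ localNormGroup F M v k :=
  sup_le_sup_left (oneModSubgroup_anti v h) _

variable {F M} in
/-- `p`-th powers are norms when `[M : F] = p`. -/
lemma pow_mem_localNormGroup [FiniteDimensional F M] (v : HeightOneSpectrum (𝓞 F)) (k : ℕ) {p : ℕ}
    (hdeg : Module.finrank F M = p) (y : Fˣ) : y ^ p ∈ localNormGroup F M v k := by
  refine Subgroup.mem_sup_left ⟨Units.map (algebraMap F M : F →* M) y, ?_⟩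
  apply Units.ext
  show Algebra.norm F (algebraMap F M (y : F)) = ((y ^ p : Fˣ) : F)
  rw [Algebra.norm_algebraMap, hdeg, Units.val_pow_eq_pow_val]

/-- The elements of `Fˣ` which are local norms to precision `k` at every prime of `S`. -/
noncomputable def localNormsAt (S : Finset (HeightOneSpectrum (𝓞 F))) (k : ℕ) : Subgroup Fˣ :=
  S.inf fun v => localNormGroup F M v k

variable {F M} in
lemma mem_localNormsAt {S : Finset (HeightOneSpectrum (𝓞 F))} {k : ℕ} {y : Fˣ} :
    y ∈ localNormsAt F M S k ↔ ∀ v ∈ S, y ∈ localNormGroup F M v k := by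
  classical
  unfold localNormsAt
  induction S using Finset.induction_on with
  | empty => simp
  | insert i s _ ih => simp [Finset.inf_insert, Subgroup.mem_inf, ih]

variable {F M} in
lemma normUnits_mem_localNormsAt (S : Finset (HeightOneSpectrum (𝓞 F))) (k : ℕ) (z : Mˣ) :
    normUnits F M z ∈ localNormsAt F M S k :=
  mem_localNormsAt.mpr fun v _ => normUnits_mem_localNormGroup v k z

variable {F M} in
lemma pow_mem_localNormsAt [FiniteDimensional F M] (S : Finset (HeightOneSpectrum (𝓞 F)))
    (k : ℕ) {p : ℕ} (hdeg : Module.finrank F M = p) (y : Fˣ) : y ^ p ∈ localNormsAt F M S k :=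
  mem_localNormsAt.mpr fun v _ => pow_mem_localNormGroup v k hdeg y

end Fermat.Agent.F4G
end MergeWrap_F4_Glob_NormDefs
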