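import Fermat.Agent.MU.F4.Glob.FIRPrelim
import Fermat.Agent.MU.F4.Loc.NormIdx.Main
import Fermat.Agent.MU.F4.Glob.Interface
import Fermat.Agent.MU.F4.Glob.LocalProper
import Fermat.Agent.MU.F4.Loc.NormIndex
import Fermat.Agent.MU.F4.Ray.Main

section MergeWrap_F4_Glob_FirstIneqRay -- from F4/Glob/FirstIneqRay.lean

/-!
# F4 / GLOB : the first inequality in ray form, modulus supported on `T` (FI)

`firstIneqRay_of : SecondIneqNorm → LocalNormProperAll → F4Rec.FirstIneqRay`.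

`M/F` Galois of odd prime degree `p`, unramified outside `T ≠ ∅`.  Choose `S ⊇ T` generating the
class groups of `F` and `M` (`fir_exists_S`), a precision `k` (`fir_exists_k`), and put
`H = E_S · L_S(k)`: `[Fˣ : H] = p` (`normIndex_eq`).  The class map is

    cls I = rbCls(I)⁻¹ · ∏_{v ∈ S \ T} [y_v] ^ ord_v(I)        (in `Fˣ ⧸ H`)

where `rbCls I` is the class of any `c` with `I = (c)` away from `S` (helper74's RayBridge) and
`y_v` is a uniformizer at `v` which is `≡ 1` at the other primes of `S`.  It has modulus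
`∏_{v ∈ T} v ^ (k + 1)` because the units at `v ∈ S \ T` are local norms (ULN, `ULN.lean`).
-/

set_option autoImplicit false
set_option linter.unusedSectionVars false

open NumberField IsDedekindDomain FractionalIdeal
open scoped nonZeroDivisors

namespace Fermat.Agent.F4G

open Fermat.Agent.S14SI

variable {F M : Type} [Field F] [NumberField F] [Field M] [NumberField M] [Algebra F M]

/-- The class map of modulus supported on `T`. -/
noncomputable def firCls (S : Set (HeightOneSpectrum (𝓞 F)))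
    (D : Finset (HeightOneSpectrum (𝓞 F))) (H : Subgroup Fˣ)
    (y : HeightOneSpectrum (𝓞 F) → Fˣ) (I : Ideal (𝓞 F)) : Fˣ ⧸ H :=
  (rbCls F S H I)⁻¹ * ∏ v ∈ D,
    (QuotientGroup.mk (y v) : Fˣ ⧸ H) ^ (count F v (I : FractionalIdeal (𝓞 F)⁰ F))

theorem firCls_mul {S : Finset (HeightOneSpectrum (𝓞 F))}
    (D : Finset (HeightOneSpectrum (𝓞 F))) (H : Subgroup Fˣ)
    (y : HeightOneSpectrum (𝓞 F) → Fˣ) (hgen : GeneratesClassGroup F S)
    (hE : sUnits F (S : Set (HeightOneSpectrum (𝓞 F))) ≤ H) {I J : Ideal (𝓞 F)}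
    (hI : I ≠ ⊥) (hJ : J ≠ ⊥) :
    firCls (S : Set (HeightOneSpectrum (𝓞 F))) D H y (I * J) =
      firCls (S : Set (HeightOneSpectrum (𝓞 F))) D H y I *
        firCls (S : Set (HeightOneSpectrum (𝓞 F))) D H y J := by
  obtain ⟨cI, hcI⟩ := rb_exists_witness F hgen hI
  obtain ⟨cJ, hcJ⟩ := rb_exists_witness F hgen hJ
  have h1 : rbCls F (S : Set (HeightOneSpectrum (𝓞 F))) H (I * J) =
      rbCls F (S : Set (HeightOneSpectrum (𝓞 F))) H I *
        rbCls F (S : Set (HeightOneSpectrum (𝓞 F))) H J := by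
    rw [rbCls_eq hE hcI, rbCls_eq hE hcJ, rbCls_eq hE (c := cI * cJ) ?_]
    · rfl
    · intro v hv
      rw [coeIdeal_mul, count_mul F v (coeIdeal_ne_zero.mpr hI) (coeIdeal_ne_zero.mpr hJ),
        Units.val_mul, ← spanSingleton_mul_spanSingleton,
        count_mul F v (spanSingleton_ne_zero_iff.mpr cI.ne_zero)
          (spanSingleton_ne_zero_iff.mpr cJ.ne_zero), hcI v hv, hcJ v hv]
  have h2 : ∀ v ∈ D, (QuotientGroup.mk (y v) : Fˣ ⧸ H) ^
      (count F v ((I * J : Ideal (𝓞 F)) : FractionalIdeal (𝓞 F)⁰ F)) =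
      (QuotientGroup.mk (y v) : Fˣ ⧸ H) ^ (count F v (I : FractionalIdeal (𝓞 F)⁰ F)) *
        (QuotientGroup.mk (y v) : Fˣ ⧸ H) ^ (count F v (J : FractionalIdeal (𝓞 F)⁰ F)) := by
    intro v _
    rw [coeIdeal_mul, count_mul F v (coeIdeal_ne_zero.mpr hI) (coeIdeal_ne_zero.mpr hJ),
      zpow_add]
  unfold firCls
  have e : (rbCls F (S : Set (HeightOneSpectrum (𝓞 F))) H I *
      rbCls F (S : Set (HeightOneSpectrum (𝓞 F))) H J)⁻¹ =
      (rbCls F (S : Set (HeightOneSpectrum (𝓞 F))) H I)⁻¹ *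
        (rbCls F (S : Set (HeightOneSpectrum (𝓞 F))) H J)⁻¹ :=
    _root_.mul_inv (rbCls F (S : Set (HeightOneSpectrum (𝓞 F))) H I)
      (rbCls F (S : Set (HeightOneSpectrum (𝓞 F))) H J)
  rw [h1, e, Finset.prod_congr rfl h2, Finset.prod_mul_distrib]
  exact mul_mul_mul_comm (rbCls F (S : Set (HeightOneSpectrum (𝓞 F))) H I)⁻¹
    (rbCls F (S : Set (HeightOneSpectrum (𝓞 F))) H J)⁻¹ _ _

/-- The key membership: an element which is `≡ 1` at `T` and whose orders at the primes of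
`D = S \ T` are compensated by the `y_v` is a local norm at all primes of `S`. -/
theorem fir_mem_localNormsAt (S T D : Finset (HeightOneSpectrum (𝓞 F))) (k : ℕ)
    (hD : ∀ v, v ∈ D ↔ v ∈ S ∧ v ∉ T) (y : HeightOneSpectrum (𝓞 F) → Fˣ)
    (hYv : ∀ v ∈ D, v.valuation F (y v : F) = WithZero.exp (-1 : ℤ))
    (hYS : ∀ v ∈ D, ∀ v' ∈ S, v' ≠ v → y v ∈ oneModSubgroup F v' k)
    (hULN : ∀ v ∈ D, ∀ x : Fˣ, v.valuation F (x : F) = 1 → x ∈ localNormGroup F M v k)
    (a : Fˣ) (haT : ∀ v ∈ T, v ∈ S → a ∈ oneModSubgroup F v k)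
    (n : HeightOneSpectrum (𝓞 F) → ℤ)
    (hn : ∀ v ∈ D, v.valuation F (a : F) = WithZero.exp (-(n v))) :
    a⁻¹ * ∏ v ∈ D, y v ^ n v ∈ localNormsAt F M S k := by
  classical
  rw [mem_localNormsAt]
  intro v' hv'
  by_cases hT : v' ∈ T
  · apply oneModSubgroup_le_localNormGroup v' k
    refine Subgroup.mul_mem _ (Subgroup.inv_mem _ (haT v' hT hv')) ?_
    refine Subgroup.prod_mem _ fun v hv => Subgroup.zpow_mem _ (hYS v hv v' hv' ?_) _
    rintro rfl
    exact ((hD v').mp hv).2 hT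
  · have hv'D : v' ∈ D := (hD v').mpr ⟨hv', hT⟩
    rw [← Finset.mul_prod_erase D _ hv'D, ← mul_assoc]
    refine Subgroup.mul_mem _ (hULN v' hv'D _ ?_) ?_
    · rw [Units.val_mul, Units.val_inv_eq_inv_val, map_mul, map_inv₀, hn v' hv'D,
        Units.val_zpow_eq_zpow_val, map_zpow₀, hYv v' hv'D, ← WithZero.exp_zsmul,
        ← WithZero.exp_neg, ← WithZero.exp_add, ← WithZero.exp_zero]
      congr 1
      simp only [smul_eq_mul]
      ring
    · apply oneModSubgroup_le_localNormGroup v' k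
      refine Subgroup.prod_mem _ fun v hv => Subgroup.zpow_mem _ ?_ _
      exact hYS v (Finset.mem_of_mem_erase hv) v' hv' (Finset.ne_of_mem_erase hv).symm

theorem fir_modT_eq (T : Finset (HeightOneSpectrum (𝓞 F))) (k : ℕ) :
    F4Rec.modT T (k + 1) = rbMod F T k := rfl

theorem firCls_ray (S T D : Finset (HeightOneSpectrum (𝓞 F))) (k : ℕ) (H : Subgroup Fˣ)
    (hE : sUnits F (S : Set (HeightOneSpectrum (𝓞 F))) ≤ H)
    (hL : localNormsAt F M S k ≤ H)
    (hD : ∀ v, v ∈ D ↔ v ∈ S ∧ v ∉ T) (y : HeightOneSpectrum (𝓞 F) → Fˣ)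
    (hYv : ∀ v ∈ D, v.valuation F (y v : F) = WithZero.exp (-1 : ℤ))
    (hYS : ∀ v ∈ D, ∀ v' ∈ S, v' ≠ v → y v ∈ oneModSubgroup F v' k)
    (hULN : ∀ v ∈ D, ∀ x : Fˣ, v.valuation F (x : F) = 1 → x ∈ localNormGroup F M v k)
    {a : 𝓞 F} (ha : a ≠ 0) (h : a - 1 ∈ F4Rec.modT T (k + 1)) :
    firCls (S : Set (HeightOneSpectrum (𝓞 F))) D H y (Ideal.span {a}) = 1 := by
  have ha' : (a : F) ≠ 0 := by exact_mod_cast ha
  set au : Fˣ := Units.mk0 (a : F) ha' with hau
  have h1 : rbCls F (S : Set (HeightOneSpectrum (𝓞 F))) H (Ideal.span {a}) =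
      QuotientGroup.mk au :=
    rbCls_eq hE (c := au) (fun v _ => by rw [coeIdeal_span_singleton, Units.val_mk0])
  have h2 : ∏ v ∈ D, (QuotientGroup.mk (y v) : Fˣ ⧸ H) ^
      (count F v ((Ideal.span {a} : Ideal (𝓞 F)) : FractionalIdeal (𝓞 F)⁰ F)) =
      (QuotientGroup.mk (∏ v ∈ D, y v ^
        (count F v ((Ideal.span {a} : Ideal (𝓞 F)) : FractionalIdeal (𝓞 F)⁰ F))) : Fˣ ⧸ H) := by
    rw [← QuotientGroup.mk'_apply, map_prod]
    exact Finset.prod_congr rfl fun v _ => (map_zpow (QuotientGroup.mk' H) _ _).symm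
  have h3 : au⁻¹ * ∏ v ∈ D, y v ^
      (count F v ((Ideal.span {a} : Ideal (𝓞 F)) : FractionalIdeal (𝓞 F)⁰ F)) ∈ H := by
    apply hL
    refine fir_mem_localNormsAt S T D k hD y hYv hYS hULN au
      (fun v hv _ => rb_mem_oneModSubgroup k ha h hv) _ (fun v _ => ?_)
    rw [hau, Units.val_mk0, valuation_eq_exp_neg_count v ha', coeIdeal_span_singleton]
  unfold firCls
  rw [h1, h2]
  exact (QuotientGroup.eq_one_iff _).mpr h3

theorem firCls_surj (S T D : Finset (HeightOneSpectrum (𝓞 F))) (k : ℕ) (H : Subgroup Fˣ)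
    (y : HeightOneSpectrum (𝓞 F) → Fˣ) (hS : S.Nonempty) (hgen : GeneratesClassGroup F S)
    (hE : sUnits F (S : Set (HeightOneSpectrum (𝓞 F))) ≤ H)
    (hL : localNormsAt F M S k ≤ H) (hidx : H.index ≠ 0) (hDS : D ⊆ S) (hTS : T ⊆ S)
    (g : Fˣ ⧸ H) :
    ∃ I : Ideal (𝓞 F), I ≠ ⊥ ∧ I ⊔ F4Rec.modT T (k + 1) = ⊤ ∧
      firCls (S : Set (HeightOneSpectrum (𝓞 F))) D H y I = g := by
  classical
  obtain ⟨I, hI0, hI, hIg⟩ := (rb_rayClassMap (M := M) S hS k H hgen hE hL hidx).surj g⁻¹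
  have hle : rbMod F S k ≤ F4Rec.modT T (k + 1) :=
    Ideal.le_of_dvd (Finset.prod_dvd_prod_of_subset T S _ hTS)
  refine ⟨I, hI0, ?_, ?_⟩
  · rw [eq_top_iff, ← hI]
    exact sup_le_sup_left hle I
  · have h0 : ∀ v ∈ D, count F v (I : FractionalIdeal (𝓞 F)⁰ F) = 0 := by
      intro v hv
      refine fir_count_eq_zero F hI0 v ?_
      rw [eq_top_iff, ← hI]
      exact sup_le_sup_left ((rbMod_le k (hDS hv)).trans (Ideal.pow_le_self (by omega))) I
    unfold firCls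
    rw [hIg, Finset.prod_eq_one (fun v hv => by rw [h0 v hv, zpow_zero])]
    have e : (g⁻¹)⁻¹ = g := inv_inv g
    rw [e]
    exact mul_one g

theorem firCls_relNorm [IsGalois F M] {p : ℕ} (hp : p.Prime) (hdeg : Module.finrank F M = p)
    (S D : Finset (HeightOneSpectrum (𝓞 F))) (k : ℕ) (H : Subgroup Fˣ)
    (y : HeightOneSpectrum (𝓞 F) → Fˣ)
    (hgenM : Subgroup.closure
      (primeClass M '' primesAboveSet F M (S : Set (HeightOneSpectrum (𝓞 F)))) = ⊤)
    (hE : sUnits F (S : Set (HeightOneSpectrum (𝓞 F))) ≤ H)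
    (hL : localNormsAt F M S k ≤ H)
    (he : ∀ v ∈ D, ∀ w : HeightOneSpectrum (𝓞 M), primeBelow (F := F) w = v →
      w.asIdeal.ramificationIdx (𝓞 F) = 1)
    (hYH : ∀ v ∈ D, SplitsCompletely F M v → y v ∈ H)
    (hpow : ∀ g : Fˣ, g ^ p ∈ H) (A : Ideal (𝓞 M)) (hA : A ≠ ⊥) :
    firCls (S : Set (HeightOneSpectrum (𝓞 F))) D H y (Ideal.relNorm (𝓞 F) A) = 1 := by
  have h1 : ∀ v ∈ D, (QuotientGroup.mk (y v) : Fˣ ⧸ H) ^
      (count F v ((Ideal.relNorm (𝓞 F) A : Ideal (𝓞 F)) : FractionalIdeal (𝓞 F)⁰ F)) = 1 := by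
    intro v hv
    by_cases hs : SplitsCompletely F M v
    · rw [(QuotientGroup.eq_one_iff _).mpr (hYH v hv hs)]
      exact one_zpow _
    · obtain ⟨m, hm⟩ := fir_dvd_count_relNorm hp hdeg hs (he v hv) A hA
      have e : (QuotientGroup.mk (y v) : Fˣ ⧸ H) ^
          (count F v ((Ideal.relNorm (𝓞 F) A : Ideal (𝓞 F)) : FractionalIdeal (𝓞 F)⁰ F)) =
          (QuotientGroup.mk (y v ^
            (count F v ((Ideal.relNorm (𝓞 F) A : Ideal (𝓞 F)) :
              FractionalIdeal (𝓞 F)⁰ F))) : Fˣ ⧸ H) :=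
        (map_zpow (QuotientGroup.mk' H) _ _).symm
      rw [e]
      refine (QuotientGroup.eq_one_iff _).mpr ?_
      have e2 : y v ^ ((p : ℤ) * m) = (y v ^ m) ^ p := by
        rw [mul_comm, zpow_mul, zpow_natCast]
      rw [hm, e2]
      exact hpow _
  unfold firCls
  rw [rb_norm_cond S k H hgenM hE hL A hA, Finset.prod_eq_one h1]
  have e : (1 : Fˣ ⧸ H)⁻¹ = 1 := inv_one
  rw [e]
  exact mul_one 1

/-- **First inequality, ray form with modulus supported on `T`.** -/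
theorem firstIneqRay_of (h2 : SecondIneqNorm) (hP : LocalNormProperAll) :
    F4Rec.FirstIneqRay := by
  intro p F M _ _ _ _ _ _ T hp hp2 hdeg hTne hT
  classical
  have : FiniteDimensional F M := by
    apply FiniteDimensional.of_finrank_pos
    rw [hdeg]; exact hp.pos
  obtain ⟨S, hTS, hgen, hgenM⟩ := fir_exists_S (M := M) T
  obtain ⟨k, hprop⟩ := fir_exists_k hP hp hp2 hdeg S
  have hunrT := fir_ramificationIdx_eq_one hT
  have hunr : ∀ w : HeightOneSpectrum (𝓞 M),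
      w ∉ primesAboveSet F M (S : Set (HeightOneSpectrum (𝓞 F))) →
      w.asIdeal.ramificationIdx (𝓞 F) = 1 := by
    intro w hw
    refine hunrT w (fun h => hw ?_)
    obtain ⟨v, hv, hwv⟩ := h
    exact ⟨v, hTS hv, hwv⟩
  have hSne : S.Nonempty := hTne.mono hTS
  set H : Subgroup Fˣ := sUnits F (S : Set (HeightOneSpectrum (𝓞 F))) ⊔ localNormsAt F M S k
    with hH
  have hE : sUnits F (S : Set (HeightOneSpectrum (𝓞 F))) ≤ H := le_sup_left
  have hL : localNormsAt F M S k ≤ H := le_sup_right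
  have hidx : H.index = p := normIndex_eq h2 hp hp2 hdeg S k hunr hgen hgenM hprop
  have hidx0 : H.index ≠ 0 := by rw [hidx]; exact hp.ne_zero
  set D : Finset (HeightOneSpectrum (𝓞 F)) := S \ T with hDdef
  have hD : ∀ v, v ∈ D ↔ v ∈ S ∧ v ∉ T := fun v => Finset.mem_sdiff
  have hDS : D ⊆ S := Finset.sdiff_subset
  -- unramified above `D`
  have he : ∀ v ∈ D, ∀ w : HeightOneSpectrum (𝓞 M), primeBelow (F := F) w = v →
      w.asIdeal.ramificationIdx (𝓞 F) = 1 := by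
    intro v hv w hw
    refine hunrT w ?_
    rw [mem_primesAboveSet_iff, hw]
    exact ((hD v).mp hv).2
  -- ULN
  have hULN : ∀ v ∈ D, ∀ x : Fˣ, v.valuation F (x : F) = 1 → x ∈ localNormGroup F M v k := by
    intro v hv x hx
    by_cases hs : SplitsCompletely F M v
    · rw [localNormGroup_eq_top_of_splitsCompletely h2 hp hp2 hdeg S k hunr hgen hgenM hprop
        (hDS hv) hs]
      trivial
    · obtain ⟨w, hw⟩ := exists_primeBelow_eq (M := M) v
      exact unit_mem_localNormGroup h2 hp hp2 hdeg S k hunr hgen hgenM hprop (hDS hv) hs w hw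
        (he v hv w hw) hx
  -- the elements `y_v`
  have hy : ∀ v : HeightOneSpectrum (𝓞 F), ∃ y : Fˣ, v ∈ S →
      (v.valuation F (y : F) = WithZero.exp (-1 : ℤ) ∧
        ∀ v' ∈ S, v' ≠ v → y ∈ oneModSubgroup F v' k) := by
    intro v
    by_cases hv : v ∈ S
    · obtain ⟨y, h1, h2⟩ := fir_exists_y S k v hv
      exact ⟨y, fun _ => ⟨h1, h2⟩⟩
    · exact ⟨1, fun h => absurd h hv⟩
  choose y hy using hy
  have hYv : ∀ v ∈ D, v.valuation F (y v : F) = WithZero.exp (-1 : ℤ) :=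
    fun v hv => (hy v (hDS hv)).1
  have hYS : ∀ v ∈ D, ∀ v' ∈ S, v' ≠ v → y v ∈ oneModSubgroup F v' k :=
    fun v hv => (hy v (hDS hv)).2
  have hYH : ∀ v ∈ D, SplitsCompletely F M v → y v ∈ H := by
    intro v hv hs
    apply hL
    rw [mem_localNormsAt]
    intro v' hv'
    by_cases h : v' = v
    · rw [h, localNormGroup_eq_top_of_splitsCompletely h2 hp hp2 hdeg S k hunr hgen hgenM hprop
        (hDS hv) hs]
      trivial
    · exact oneModSubgroup_le_localNormGroup v' k (hYS v hv v' hv' h)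
  have hpow : ∀ g : Fˣ, g ^ p ∈ H := fun g => hL (pow_mem_localNormsAt S k hdeg g)
  have hfi : H.FiniteIndex := ⟨hidx0⟩
  have hfin : Finite (Fˣ ⧸ H) := Subgroup.finite_quotient_of_finiteIndex
  have hmod_ne_top : F4Rec.modT T (k + 1) ≠ ⊤ := rbMod_ne_top k hTne
  have hne_bot : ∀ I : Ideal (𝓞 F), I ⊔ F4Rec.modT T (k + 1) = ⊤ → I ≠ ⊥ := by
    rintro I hI rfl
    rw [bot_sup_eq] at hI
    exact hmod_ne_top hI
  refine ⟨k + 1, Fˣ ⧸ H, inferInstance, Fintype.ofFinite _,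
    firCls (S : Set (HeightOneSpectrum (𝓞 F))) D H y, by omega, ⟨?_, ?_, ?_, ?_⟩, ?_, ?_⟩
  · exact rbMod_ne_bot T k
  · intro I J hI hJ
    exact firCls_mul D H y hgen hE (hne_bot I hI) (hne_bot J hJ)
  · intro a ha h
    exact firCls_ray (M := M) S T D k H hE hL hD y hYv hYS hULN ha h
  · intro g
    exact firCls_surj (M := M) S T D k H y hSne hgen hE hL hidx0 hDS hTS g
  · intro A hA _
    exact firCls_relNorm hp hdeg S D k H y hgenM hE hL he hYH hpow A hA
  · rw [Fintype.card_eq_nat_card, ← Subgroup.index_eq_card, hidx]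
    exact hp.one_lt

end Fermat.Agent.F4G
end MergeWrap_F4_Glob_FirstIneqRay

section MergeWrap_F4_Loc_NormIdx_Trunc -- from F4/Loc/NormIdx/Trunc.lean

/-!
# F4/Loc/NormIdx: the norm group is proper modulo `V n`, without Hensel (helper91)

`NILattice.exists_not_mem_norm_mul_V`: for a Galois extension `L/K` of prime degree with an
`NIBase` (no Hensel's lemma: e.g. a number field with a non-split prime), there is `y ∈ Kˣ` which
is not in `N(Lˣ) · V n`.

Proof: the Herbrand quotient of `Lˣ / V n` is `p` (it contains `π^ℤ` with finite index), and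
`(Lˣ / V n)^G = Kˣ V n / V n` by Hilbert 90 inside `V n` (V2).
-/

set_option autoImplicit false
set_option linter.unusedSectionVars false

open Finset
open scoped Classical

namespace Fermat.Agent.F4Loc

variable {K L : Type} [Field K] [Field L] [Algebra K L] [FiniteDimensional K L] [IsGalois K L]

namespace NILattice

variable {S : NIBase K L} (Λ : NILattice S)

/-- a power of `π` in `V n` is trivial. -/
theorem eq_zero_of_zpow_mem_V {n : ℕ} {j : ℤ} (h : S.πu ^ j ∈ Λ.V n) : j = 0 := by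
  rw [mem_V] at h
  have e : ((S.πu ^ j : Lˣ) : L) = algebraMap K L (S.π ^ j) := by
    rw [Units.val_zpow_eq_zpow_val, NIBase.coe_πu, map_zpow₀]
  rw [e] at h
  have h1 := S.I_anti (Nat.le_add_left 1 n) (Λ.mem_I_of_P_algebraMap h)
  have e2 : 1 + (S.π ^ j - 1) = S.π ^ j := by ring
  apply S.zpow_eq_zero_of_unit
  · rw [← e2]
    exact add_mem (one_mem _) (S.I_le_OK h1)
  · have := S.inv_one_add_mem h1
    rwa [e2] at this

/-- the quotient `Lˣ / V n`. -/
abbrev Q (n : ℕ) : Type := Lˣ ⧸ Λ.V n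

/-- the twist on `Lˣ / V n`. -/
noncomputable def twistQ (n : ℕ) (σ : L ≃ₐ[K] L) : Λ.Q n →* Λ.Q n :=
  QuotientGroup.map (Λ.V n) (Λ.V n) (twistEndo σ) (fun _ hv => Λ.twistEndo_mem_V σ hv)

/-- the norm on `Lˣ / V n`. -/
noncomputable def normQ (n : ℕ) : Λ.Q n →* Λ.Q n :=
  QuotientGroup.map (Λ.V n) (Λ.V n) (normEndo K L) (fun _ hv => Λ.normEndo_mem_V hv)

theorem twistQ_mk (n : ℕ) (σ : L ≃ₐ[K] L) (x : Lˣ) :
    Λ.twistQ n σ (QuotientGroup.mk x) = QuotientGroup.mk (twistEndo σ x) := rfl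

theorem normQ_mk (n : ℕ) (x : Lˣ) :
    Λ.normQ n (QuotientGroup.mk x) = QuotientGroup.mk (normEndo K L x) := rfl

theorem twistQ_normQ (n : ℕ) (σ : L ≃ₐ[K] L) (x : Λ.Q n) : Λ.twistQ n σ (Λ.normQ n x) = 1 := by
  induction x using QuotientGroup.induction_on with
  | H x => rw [normQ_mk, twistQ_mk, twistEndo_normEndo]; rfl

theorem normQ_twistQ (n : ℕ) (σ : L ≃ₐ[K] L) (x : Λ.Q n) : Λ.normQ n (Λ.twistQ n σ x) = 1 := by
  induction x using QuotientGroup.induction_on with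
  | H x => rw [twistQ_mk, normQ_mk, normEndo_twistEndo]; rfl

/-- the image of `π` in `Lˣ / V n`. -/
noncomputable def πQ (n : ℕ) : Λ.Q n := QuotientGroup.mk S.πu

theorem twistQ_πQ (n : ℕ) (σ : L ≃ₐ[K] L) : Λ.twistQ n σ (Λ.πQ n) = 1 := by
  rw [πQ, twistQ_mk, twistEndo_πu]; rfl

theorem normEndo_πu : normEndo K L S.πu = S.πu ^ Module.finrank K L := by
  ext
  rw [coe_normEndo, NIBase.coe_πu, Algebra.norm_algebraMap, map_pow, Units.val_pow_eq_pow_val,
    NIBase.coe_πu]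

theorem normEndo_πu_zpow (k : ℤ) :
    normEndo K L (S.πu ^ k) = S.πu ^ ((Module.finrank K L : ℤ) * k) := by
  rw [map_zpow, normEndo_πu, zpow_mul, zpow_natCast]

/-- `B̄ = π^ℤ` in `Lˣ / V n`. -/
noncomputable def BQ (n : ℕ) : Subgroup (Λ.Q n) :=
  (Subgroup.zpowers S.πu).map (QuotientGroup.mk' (Λ.V n))

theorem mem_BQ {n : ℕ} {x : Λ.Q n} : x ∈ Λ.BQ n ↔ ∃ k : ℤ, x = QuotientGroup.mk (S.πu ^ k) := by
  rw [BQ, Subgroup.mem_map]
  constructor
  · rintro ⟨u, hu, rfl⟩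
    obtain ⟨k, rfl⟩ := Subgroup.mem_zpowers_iff.mp hu
    exact ⟨k, rfl⟩
  · rintro ⟨k, rfl⟩
    exact ⟨S.πu ^ k, Subgroup.zpow_mem_zpowers _ _, rfl⟩

theorem mk_eq_one_iff {n : ℕ} {x : Lˣ} : (QuotientGroup.mk x : Λ.Q n) = 1 ↔ x ∈ Λ.V n :=
  QuotientGroup.eq_one_iff x

theorem map_twistQ_BQ_le (n : ℕ) (σ : L ≃ₐ[K] L) : (Λ.BQ n).map (Λ.twistQ n σ) ≤ Λ.BQ n := by
  rintro _ ⟨x, hx, rfl⟩
  obtain ⟨k, rfl⟩ := Λ.mem_BQ.mp hx
  rw [twistQ_mk, map_zpow, twistEndo_πu, one_zpow]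
  exact Λ.mem_BQ.mpr ⟨0, by rw [zpow_zero]⟩

theorem map_normQ_BQ_le (n : ℕ) : (Λ.BQ n).map (Λ.normQ n) ≤ Λ.BQ n := by
  rintro _ ⟨x, hx, rfl⟩
  obtain ⟨k, rfl⟩ := Λ.mem_BQ.mp hx
  rw [normQ_mk, normEndo_πu_zpow]
  exact Λ.mem_BQ.mpr ⟨_, rfl⟩

theorem index_BQ_ne_zero (n : ℕ) : (Λ.BQ n).index ≠ 0 := by
  have h1 : (Λ.BQ n).comap (QuotientGroup.mk' (Λ.V n)) = Λ.V n ⊔ Subgroup.zpowers S.πu := by
    rw [BQ, Subgroup.comap_map_eq, QuotientGroup.ker_mk', sup_comm]
  rw [← Subgroup.index_comap_of_surjective (Λ.BQ n) (QuotientGroup.mk'_surjective (Λ.V n)), h1]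
  exact Λ.index_ne_zero n

theorem mhq_normQ_twistQ_BQ (n : ℕ) (σ : L ≃ₐ[K] L) :
    mhq (A := Λ.Q n) (Λ.normQ n) (Λ.twistQ n σ) (Λ.BQ n) = 1 := by
  rw [mhq_def, Subgroup.relIndex_eq_one]
  rintro x ⟨hxB, hxN⟩
  obtain ⟨k, rfl⟩ := Λ.mem_BQ.mp hxB
  have h1 : Λ.normQ n (QuotientGroup.mk (S.πu ^ k)) = 1 := MonoidHom.mem_ker.mp hxN
  rw [normQ_mk, normEndo_πu_zpow, mk_eq_one_iff] at h1
  have h2 := Λ.eq_zero_of_zpow_mem_V h1
  have hp0 : (Module.finrank K L : ℤ) ≠ 0 := by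
    exact_mod_cast (Module.finrank_pos (R := K) (M := L)).ne'
  have hk : k = 0 := by
    rcases mul_eq_zero.mp h2 with h | h
    · exact absurd h hp0
    · exact h
  rw [hk, zpow_zero]
  exact Subgroup.one_mem _

theorem mhq_twistQ_normQ_BQ (hp : (Module.finrank K L).Prime) (n : ℕ) (σ : L ≃ₐ[K] L) :
    mhq (A := Λ.Q n) (Λ.twistQ n σ) (Λ.normQ n) (Λ.BQ n) = Module.finrank K L := by
  rw [mhq_def]
  have hπB : Λ.πQ n ∈ Λ.BQ n := Λ.mem_BQ.mpr ⟨1, by rw [zpow_one]; rfl⟩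
  refine relIndex_eq_prime (G := Λ.Q n) hp (Λ.πQ n) ⟨hπB, ?_⟩ ?_ ?_ ?_
  · exact MonoidHom.mem_ker.mpr (Λ.twistQ_πQ n σ)
  · rintro ⟨x, hx, hxπ⟩
    obtain ⟨k, rfl⟩ := Λ.mem_BQ.mp hx
    rw [normQ_mk, normEndo_πu_zpow, πQ, QuotientGroup.eq] at hxπ
    have e : (S.πu ^ ((Module.finrank K L : ℤ) * k))⁻¹ * S.πu =
        S.πu ^ (1 - (Module.finrank K L : ℤ) * k) := by
      rw [zpow_sub, zpow_one, mul_comm]
    rw [e] at hxπ
    have h4 := Λ.eq_zero_of_zpow_mem_V hxπ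
    have h5 : (Module.finrank K L : ℤ) * k = 1 := by linarith
    have h6 := Int.eq_one_or_neg_one_of_mul_eq_one h5
    have h7 : 2 ≤ Module.finrank K L := hp.two_le
    omega
  · refine ⟨Λ.πQ n, hπB, ?_⟩
    rw [πQ, normQ_mk, normEndo_πu]
    exact QuotientGroup.mk_pow (Λ.V n) S.πu (Module.finrank K L)
  · rintro x ⟨hxB, -⟩
    obtain ⟨k, rfl⟩ := Λ.mem_BQ.mp hxB
    refine Subgroup.mem_sup_right ?_
    rw [Subgroup.mem_zpowers_iff]
    exact ⟨k, (QuotientGroup.mk_zpow (Λ.V n) S.πu k).symm⟩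

/-- The Herbrand quotient of `Lˣ / V n` is a nonzero multiple of `p`; in particular
`Ĥ⁰(G, Lˣ / V n) ≠ 1`. -/
theorem mhq_twistQ_normQ_top_ne_one (hp : (Module.finrank K L).Prime) (n : ℕ)
    (σ : L ≃ₐ[K] L) : mhq (A := Λ.Q n) (Λ.twistQ n σ) (Λ.normQ n) ⊤ ≠ 1 := by
  have key := mhq_top_mul_mhq (A := Λ.Q n) (Λ.twistQ n σ) (Λ.normQ n) (Λ.twistQ_normQ n σ)
    (Λ.normQ_twistQ n σ) (Λ.map_twistQ_BQ_le n σ) (Λ.map_normQ_BQ_le n) (Λ.index_BQ_ne_zero n)
  rw [Λ.mhq_normQ_twistQ_BQ n σ, Λ.mhq_twistQ_normQ_BQ hp n σ, mul_one] at key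
  have hne : mhq (A := Λ.Q n) (Λ.normQ n) (Λ.twistQ n σ) ⊤ ≠ 0 := by
    rw [mhq_ne_zero_iff_of_relIndex_ne_zero (A := Λ.Q n) (Λ.normQ n) (Λ.twistQ n σ) (Λ.normQ_twistQ n σ)
      (le_top : Λ.BQ n ≤ ⊤) (Λ.map_twistQ_BQ_le n σ) le_top
      (by rw [Subgroup.relIndex_top_right]; exact Λ.index_BQ_ne_zero n),
      Λ.mhq_normQ_twistQ_BQ n σ]
    exact one_ne_zero
  intro h1
  rw [h1] at key
  have h7 : 2 ≤ Module.finrank K L := hp.two_le
  have hpos : 1 ≤ mhq (A := Λ.Q n) (Λ.normQ n) (Λ.twistQ n σ) ⊤ := Nat.one_le_iff_ne_zero.mpr hne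
  nlinarith

/-- **Properness of the norm group modulo `V n`, without Hensel**: some `y ∈ Kˣ` is not in
`N(Lˣ) · V n`. -/
theorem exists_not_mem_norm_mul_V (hp : (Module.finrank K L).Prime) (n : ℕ) :
    ∃ y : Kˣ, ∀ z : Lˣ, unitsIncl K L y / normEndo K L z ∉ Λ.V n := by
  have : Fact (Module.finrank K L).Prime := ⟨hp⟩
  have hcard : Nat.card (L ≃ₐ[K] L) = Module.finrank K L := IsGalois.card_aut_eq_finrank K L
  have hcyc : IsCyclic (L ≃ₐ[K] L) := isCyclic_of_prime_card hcard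
  obtain ⟨σ, hσ⟩ := hcyc.exists_generator
  have h1 := Λ.mhq_twistQ_normQ_top_ne_one hp n σ
  rw [mhq_top, Ne, Subgroup.relIndex_eq_one, SetLike.not_le_iff_exists] at h1
  obtain ⟨xq, hx1, hx2⟩ := h1
  induction xq using QuotientGroup.induction_on with
  | H x =>
    have hxV : twistEndo σ x ∈ Λ.V n := by
      have := MonoidHom.mem_ker.mp hx1
      rw [twistQ_mk] at this
      exact (QuotientGroup.eq_one_iff _).mp this
    have hN : Algebra.norm K ((twistEndo σ x : Lˣ) : L) = 1 := by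
      have := congrArg Units.val (normEndo_twistEndo σ x)
      rw [coe_normEndo, Units.val_one] at this
      exact (algebraMap K L).injective (by rw [this, map_one])
    obtain ⟨c, hc, hσc⟩ := Λ.exists_twist_eq σ hσ n _ hxV hN
    have hc0 : c ≠ 0 := Λ.ne_zero_of_P (Nat.le_add_left 1 n) hc
    set cu : Lˣ := Units.mk0 c hc0 with hcu
    have hcV : cu ∈ Λ.V n := hc
    have htw : twistEndo σ cu = twistEndo σ x := by
      ext
      rw [coe_twistEndo, hcu, Units.val_mk0, hσc]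
      field_simp
    have hker : x / cu ∈ (twistEndo σ).ker := by
      rw [MonoidHom.mem_ker, map_div, htw, div_self']
    rw [ker_twistEndo hσ] at hker
    obtain ⟨y, -, hy⟩ := hker
    refine ⟨y, fun z hz => hx2 ⟨QuotientGroup.mk z, ?_⟩⟩
    rw [normQ_mk]
    rw [QuotientGroup.eq]
    -- `(g z)⁻¹ * x = (ι y / g z) * cu`
    have e : (normEndo K L z)⁻¹ * x = (unitsIncl K L y / normEndo K L z) * cu := by
      rw [hy, div_div, mul_comm cu, ← div_div, div_mul_cancel, div_eq_mul_inv, mul_comm]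
    rw [e]
    exact Subgroup.mul_mem _ hz hcV

end NILattice

end Fermat.Agent.F4Loc
end MergeWrap_F4_Loc_NormIdx_Trunc

section MergeWrap_F4_Glob_LocalProperAll -- from F4/Glob/LocalProperAll.lean

/-!
# F4 / GLOB : `LocalNormProperAll` (helper91)

For a Galois extension `M/F` of number fields of prime degree `p` and a prime `v` of `F` which
does not split completely, the local norm group `N(Mˣ) · U_v^{(k+1)}` is proper for `k` large:
inert, tamely ramified and wildly ramified primes alike.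

Proof: the unique prime `w` above `v` gives a Galois-invariant valuation of `M`; this is an
`NIBase` (no Hensel's lemma needed), and `NILattice.exists_not_mem_norm_mul_V` (the Herbrand
quotient of `Mˣ / V₀` is `p`, Hilbert 90 inside `V₀`) produces `y ∈ Fˣ` outside `N(Mˣ) · V₀`;
`U_v^{(k+1)} ⊆ V₀` for `k` large.
-/

set_option autoImplicit false
set_option linter.unusedSectionVars false

open NumberField IsDedekindDomain

namespace Fermat.Agent.F4G

open Fermat.Agent.S14SI Fermat.Agent.F4Loc Fermat.Agent.F4.Loc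

section reps

variable {F : Type*} [Field F] [NumberField F]

/-- Finitely many representatives of the residue field of `v`, for the elements of `F`
integral at `v`. -/
lemma lpa_exists_reps (v : HeightOneSpectrum (𝓞 F)) :
    ∃ R : Finset F, ∀ x : F, v.valuation F x ≤ 1 → ∃ r ∈ R, v.valuation F (x - r) < 1 := by
  classical
  have hfin : Finite (𝓞 F ⧸ v.asIdeal) := Ideal.finiteQuotientOfFreeOfNeBot v.asIdeal v.ne_bot
  cases nonempty_fintype (𝓞 F ⧸ v.asIdeal)
  have hmax : v.asIdeal.IsMaximal := v.isMaximal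
  set ι := algebraMap (𝓞 F) F with hι
  set rep : 𝓞 F → 𝓞 F := fun a => Quotient.out (Ideal.Quotient.mk v.asIdeal a) with hrep
  have hA : ∀ a : 𝓞 F, v.valuation F (ι a - ι (rep a)) < 1 := by
    intro a
    have h1 : a - rep a ∈ v.asIdeal := by
      rw [← Ideal.Quotient.eq]
      exact (Ideal.Quotient.mk_out _).symm
    have h2 : v.valuation F (ι (a - rep a)) < 1 :=
      (v.valuation_lt_one_iff_mem (K := F) (a - rep a)).mpr h1
    rwa [map_sub] at h2
  refine ⟨Finset.univ.image (fun c : 𝓞 F ⧸ v.asIdeal => ι (Quotient.out c)),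
    fun x hx => ?_⟩
  have hmemR : ∀ a : 𝓞 F, ι (rep a) ∈
      Finset.univ.image (fun c : 𝓞 F ⧸ v.asIdeal => ι (Quotient.out c)) := fun a =>
    Finset.mem_image.mpr ⟨Ideal.Quotient.mk v.asIdeal a, Finset.mem_univ _, rfl⟩
  -- it suffices to approximate `x` by an integer
  suffices h : ∃ a : 𝓞 F, v.valuation F (x - ι a) < 1 by
    obtain ⟨a, ha⟩ := h
    refine ⟨_, hmemR a, ?_⟩
    have e : x - ι (rep a) = (x - ι a) + (ι a - ι (rep a)) := by ring
    rw [e]
    exact lt_of_le_of_lt (Valuation.map_add _ _ _) (max_lt ha (hA a))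
  rcases lt_or_eq_of_le hx with hlt | heq
  · exact ⟨0, by rw [map_zero, sub_zero]; exact hlt⟩
  · obtain ⟨n, d, -, hd, hnd⟩ := exists_div_of_valuation_eq_one v heq
    have hnd' : x * ι d = ι n := hnd
    obtain ⟨y, i, hi, hyi⟩ := hmax.exists_inv hd
    refine ⟨n * y, ?_⟩
    have e : x - ι (n * y) = x * ι i := by
      have h1 : ι y * ι d + ι i = 1 := by
        rw [← map_mul, ← map_add, hyi, map_one]
      rw [map_mul]
      linear_combination ι y * hnd' - x * h1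
    rw [e, Valuation.map_mul, heq, one_mul]
    exact (v.valuation_lt_one_iff_mem (K := F) i).mpr hi

end reps

section unif

variable {F M : Type*} [Field F] [NumberField F] [Field M] [NumberField M] [Algebra F M]

/-- the restriction to `F` of the `w`-adic valuation is a power of the `v`-adic one. -/
lemma lpa_resVal (v : HeightOneSpectrum (𝓞 F)) (w : HeightOneSpectrum (𝓞 M))
    [w.asIdeal.LiesOver v.asIdeal] (x : F) :
    resVal F (w.valuation M) x = v.valuation F x ^ v.asIdeal.ramificationIdx' w.asIdeal :=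
  (HeightOneSpectrum.valuation_liesOver M v w x).symm

lemma lpa_ram_ne_zero (v : HeightOneSpectrum (𝓞 F)) (w : HeightOneSpectrum (𝓞 M))
    [w.asIdeal.LiesOver v.asIdeal] : v.asIdeal.ramificationIdx' w.asIdeal ≠ 0 :=
  Ideal.IsDedekindDomain.ramificationIdx'_ne_zero_of_liesOver w.asIdeal v.ne_bot

lemma lpa_resVal_le_one (v : HeightOneSpectrum (𝓞 F)) (w : HeightOneSpectrum (𝓞 M))
    [w.asIdeal.LiesOver v.asIdeal] (x : F) :
    resVal F (w.valuation M) x ≤ 1 ↔ v.valuation F x ≤ 1 := by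
  rw [lpa_resVal v w, pow_le_one_iff (lpa_ram_ne_zero v w)]

lemma lpa_resVal_lt_one (v : HeightOneSpectrum (𝓞 F)) (w : HeightOneSpectrum (𝓞 M))
    [w.asIdeal.LiesOver v.asIdeal] (x : F) :
    resVal F (w.valuation M) x < 1 ↔ v.valuation F x < 1 := by
  rw [lpa_resVal v w, pow_lt_one_iff (lpa_ram_ne_zero v w)]

lemma lpa_isUnif (v : HeightOneSpectrum (𝓞 F)) (w : HeightOneSpectrum (𝓞 M))
    [w.asIdeal.LiesOver v.asIdeal] {π : F} (hπ : v.valuation F π = WithZero.exp (-1 : ℤ)) :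
    IsUnif (resVal F (w.valuation M)) π := by
  have hπ0 : π ≠ 0 := by
    rintro rfl
    rw [map_zero] at hπ
    exact WithZero.exp_ne_zero hπ.symm
  have hvπ : v.valuation F π < 1 := by
    rw [hπ, ← WithZero.exp_zero]
    exact WithZero.exp_lt_exp.mpr (by norm_num)
  refine ⟨hπ0, (lpa_resVal_lt_one v w π).mpr hvπ, fun x hx => ?_⟩
  have hvx : v.valuation F x ≠ 0 := (Valuation.ne_zero_iff _).mpr hx
  refine ⟨-(WithZero.log (v.valuation F x)), ?_⟩
  rw [lpa_resVal v w, lpa_resVal v w, hπ, ← zpow_natCast, ← zpow_natCast, ← zpow_mul, mul_comm,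
    zpow_mul]
  congr 1
  rw [← WithZero.exp_zsmul, smul_eq_mul, neg_mul_neg, mul_one, WithZero.exp_log hvx]

lemma lpa_hasFiniteResidue (v : HeightOneSpectrum (𝓞 F)) (w : HeightOneSpectrum (𝓞 M))
    [w.asIdeal.LiesOver v.asIdeal] : HasFiniteResidue (resVal F (w.valuation M)) := by
  obtain ⟨R, hR⟩ := lpa_exists_reps v
  refine ⟨R, fun x hx => ?_⟩
  obtain ⟨r, hr, h⟩ := hR x ((lpa_resVal_le_one v w x).mp hx)
  exact ⟨r, hr, (lpa_resVal_lt_one v w _).mpr h⟩

end unif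

/-- **`LocalNormProperAll`**: the local norm group at a prime which does not split completely in
a Galois extension of prime degree is proper (inert, tame and wild primes). -/
theorem localNormProperAll : LocalNormProperAll := by
  intro p F M _ _ _ _ _ _ v hp _ hdeg hns
  obtain ⟨w, hw⟩ := exists_primeBelow_eq (M := M) v
  have hlo : w.asIdeal.LiesOver v.asIdeal := ⟨by rw [← hw]; rfl⟩
  obtain ⟨π, hπ⟩ := v.valuation_exists_uniformizer F
  have hinv : IsInvVal F (w.valuation M) := fun τ x => td_valuation_apply hp hdeg hns w hw τ x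
  have hunif := lpa_isUnif v w hπ
  set S : NIBase F M := niBase (w.valuation M) hinv π hunif (lpa_hasFiniteResidue v w) with hS
  obtain ⟨Λ⟩ := S.exists_lattice
  have hp' : (Module.finrank F M).Prime := by rw [hdeg]; exact hp
  obtain ⟨y, hy⟩ := Λ.exists_not_mem_norm_mul_V hp' 0
  -- precision
  obtain ⟨N, hN⟩ := S.exists_pow_mul_mem ((Λ.t₀ * π)⁻¹)
  have hN' : v.valuation F (π ^ N * (Λ.t₀ * π)⁻¹) ≤ 1 := (lpa_resVal_le_one v w _).mp hN
  have hπ0 : π ≠ 0 := hunif.1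
  refine ⟨N, fun htop => ?_⟩
  have hymem : y ∈ localNormGroup F M v N := by rw [htop]; trivial
  obtain ⟨z, hz⟩ := mem_localNormGroup.mp hymem
  apply hy z
  rw [mem_oneModSubgroup] at hz
  -- `y / N z ∈ V 0`
  have e1 : unitsIncl F M y / normEndo F M z = unitsIncl F M (y / normUnits F M z) := by
    rw [map_div]
    rfl
  rw [e1, NILattice.mem_V, coe_unitsIncl, Λ.P_algebraMap, NIBase.mem_I, NIBase.mem_OK]
  show algebraMap F M _ ∈ (w.valuation M).valuationSubring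
  rw [Valuation.mem_valuationSubring_iff]
  set a : F := ((y / normUnits F M z : Fˣ) : F) with ha
  show resVal F (w.valuation M) ((a - 1) / Λ.t₀ / S.π ^ (0 + 1)) ≤ 1
  rw [lpa_resVal_le_one v w]
  have hSπ : S.π = π := rfl
  have e2 : (a - 1) / Λ.t₀ / S.π ^ (0 + 1) = ((a - 1) / π ^ N) * (π ^ N * (Λ.t₀ * π)⁻¹) := by
    rw [hSπ, zero_add, pow_one]
    have ht := Λ.t₀_ne_zero
    field_simp
  rw [e2, Valuation.map_mul]
  refine mul_le_one' ?_ hN'
  rw [map_div₀, map_pow, hπ]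
  have h3 : (WithZero.exp (-1 : ℤ)) ^ N = WithZero.exp (-(N : ℤ)) := by
    rw [← WithZero.exp_nsmul]
    congr 1
    simp
  rw [h3]
  exact (div_le_one₀ (zero_lt_iff.mpr WithZero.exp_ne_zero)).mpr hz.le

end Fermat.Agent.F4G
end MergeWrap_F4_Glob_LocalProperAll

section MergeWrap_F4_Glob_FirstIneqRayMain -- from F4/Glob/FirstIneqRayMain.lean

/-!
# F4 / GLOB : the first inequality in ray form, unconditional

`firstIneqRay : F4Rec.FirstIneqRay`, from `firstIneqRay_of`, the analytic second inequality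
(`F4Ray.secondIneqRay`, through `secondIneqNorm_of`) and `localNormProperAll`.
-/

set_option autoImplicit false

namespace Fermat.Agent.F4G

/-- The finite-level norm form of the second inequality. -/
theorem secondIneqNorm_uncond : SecondIneqNorm := secondIneqNorm_of Fermat.Agent.F4Ray.secondIneqRay

/-- **First inequality, ray form with modulus supported on `T`** (unconditional). -/
theorem firstIneqRay : Fermat.Agent.F4Rec.FirstIneqRay :=
  firstIneqRay_of secondIneqNorm_uncond localNormProperAll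

end Fermat.Agent.F4G
end MergeWrap_F4_Glob_FirstIneqRayMain
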