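import Fermat.Agent.MU.F4.Glob.Interface
import Fermat.Agent.MU.S17.W.Final

section MergeWrap_F4_Glob_RayBridge -- from F4/Glob/RayBridge.lean

/-!
# F4 / GLOB : RayBridge — `SecondIneqRay → SecondIneqNorm` (helper74)

`secondIneqNorm_of : F4Ray.SecondIneqRay → SecondIneqNorm`.

Given `H ≤ Fˣ` of finite index containing the `S`-units and the local norms at `S` to precision
`k`, the modulus is `m = ∏_{v ∈ S} v ^ (k + 1)` (`rbMod`) and the generalised ideal class map is
`rbCls I = ` the class in `Fˣ ⧸ H` of any `c` with `I = (c)` away from `S` (exists as the primes of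
`S` generate the class group; two choices differ by an `S`-unit).

* `rb_split` : a nonzero ideal is (product of primes of `T`) × (ideal prime to `T`);
* `rb_count_relNorm_eq` : the count at `v ∉ S` of `relNorm B` only depends on the counts of `B`
  away from the primes above `S`;
* `rb_rayClassMap` : `rbCls` is a `RayClassMap` of modulus `rbMod`;
* `rb_norm_cond` : `rbCls` kills the relative norms.
-/

set_option autoImplicit false
set_option linter.unusedSectionVars false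
set_option linter.style.haveILetI false

open NumberField IsDedekindDomain FractionalIdeal
open scoped nonZeroDivisors

namespace Fermat.Agent.F4G

open Fermat.Agent.S14SI

section General

variable {R : Type*} [CommRing R] [IsDedekindDomain R] (K : Type*) [Field K] [Algebra R K]
  [IsFractionRing R K]

/-- Two nonzero ideals with the same counts at all primes are equal. -/
theorem rb_ideal_ext {I J : Ideal R} (hI : I ≠ ⊥) (hJ : J ≠ ⊥)
    (h : ∀ w : HeightOneSpectrum R, count K w (I : FractionalIdeal R⁰ K) =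
      count K w (J : FractionalIdeal R⁰ K)) : I = J := by
  have hI' : (I : FractionalIdeal R⁰ K) ≠ 0 := coeIdeal_ne_zero.mpr hI
  have hJ' : (J : FractionalIdeal R⁰ K) ≠ 0 := coeIdeal_ne_zero.mpr hJ
  have e : (I : FractionalIdeal R⁰ K) = (J : FractionalIdeal R⁰ K) := by
    rw [← finprod_heightOneSpectrum_factorization' (K := K) hI',
      ← finprod_heightOneSpectrum_factorization' (K := K) hJ']
    exact finprod_congr fun w => by rw [h w]
  exact coeIdeal_injective e

/-- Splitting a nonzero ideal into its `T`-part and its prime-to-`T` part. -/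
theorem rb_split (T : Set (HeightOneSpectrum R)) (Q : Ideal R → Prop) (hQ1 : Q ⊤)
    (hQ : ∀ w ∈ T, ∀ X, Q X → Q (w.asIdeal * X)) (B : Ideal R) (hB : B ≠ ⊥) :
    ∃ X Y : Ideal R, B = X * Y ∧ Q X ∧
      (∀ w : HeightOneSpectrum R, w ∉ T → count K w (X : FractionalIdeal R⁰ K) = 0) ∧
      (∀ w : HeightOneSpectrum R, w ∈ T → count K w (Y : FractionalIdeal R⁰ K) = 0) := by
  classical
  revert hB
  refine UniqueFactorizationMonoid.induction_on_prime
    (P := fun B : Ideal R => B ≠ ⊥ → ∃ X Y : Ideal R, B = X * Y ∧ Q X ∧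
      (∀ w : HeightOneSpectrum R, w ∉ T → count K w (X : FractionalIdeal R⁰ K) = 0) ∧
      (∀ w : HeightOneSpectrum R, w ∈ T → count K w (Y : FractionalIdeal R⁰ K) = 0)) B ?_ ?_ ?_
  · intro h
    exact absurd rfl h
  · intro x hx _
    have hx' : x = ⊤ := by
      rwa [Ideal.isUnit_iff] at hx
    subst hx'
    refine ⟨⊤, ⊤, by simp, hQ1, fun w _ => ?_, fun w _ => ?_⟩
    · rw [coeIdeal_top, count_one]
    · rw [coeIdeal_top, count_one]
  · intro a P ha hP ih _
    obtain ⟨X, Y, hXY, hQX, hX, hY⟩ := ih ha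
    have hP0 : P ≠ ⊥ := hP.ne_zero
    have hPprime : P.IsPrime := Ideal.isPrime_of_prime hP
    set w₀ : HeightOneSpectrum R := ⟨P, hPprime, hP0⟩ with hw₀
    have hX0 : X ≠ ⊥ := by
      rintro rfl
      rw [Ideal.bot_mul] at hXY
      exact ha hXY
    have hY0 : Y ≠ ⊥ := by
      rintro rfl
      rw [Ideal.mul_bot] at hXY
      exact ha hXY
    by_cases hw : w₀ ∈ T
    · refine ⟨P * X, Y, by rw [hXY, mul_assoc], hQ w₀ hw X hQX, fun w hwT => ?_, hY⟩
      have hne : w₀ ≠ w := fun h => hwT (h ▸ hw)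
      rw [coeIdeal_mul, count_mul K w (coeIdeal_ne_zero.mpr hP0) (coeIdeal_ne_zero.mpr hX0),
        hX w hwT, add_zero]
      exact count_maximal_coprime K w hne
    · refine ⟨X, P * Y, by rw [hXY, mul_left_comm], hQX, hX, fun w hwT => ?_⟩
      have hne : w₀ ≠ w := fun h => hw (h ▸ hwT)
      rw [coeIdeal_mul, count_mul K w (coeIdeal_ne_zero.mpr hP0) (coeIdeal_ne_zero.mpr hY0),
        hY w hwT, add_zero]
      exact count_maximal_coprime K w hne

/-- If the classes of the primes of `S` generate the class group, every nonzero ideal is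
principal away from `S`. -/
theorem rb_exists_witness {S : Set (HeightOneSpectrum R)}
    (hgen : Subgroup.closure ((fun v : HeightOneSpectrum R =>
      ClassGroup.mk0 ⟨v.asIdeal, mem_nonZeroDivisors_of_ne_zero v.ne_bot⟩) '' S) = ⊤)
    {I : Ideal R} (hI : I ≠ ⊥) :
    ∃ c : Kˣ, ∀ v : HeightOneSpectrum R, v ∉ S →
      count K v (I : FractionalIdeal R⁰ K) = count K v (spanSingleton R⁰ (c : K)) := by
  have hI' : (I : FractionalIdeal R⁰ K) ≠ 0 := coeIdeal_ne_zero.mpr hI
  have hmem : Units.mk0 (I : FractionalIdeal R⁰ K) hI' ∈ principalAway K S := by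
    rw [principalAway_eq_top hgen]
    trivial
  obtain ⟨c, hc⟩ := hmem
  exact ⟨c, fun v hv => by simpa using hc v hv⟩

/-- Two elements with the same counts away from `S` have the same valuations away from `S`. -/
theorem rb_valuation_div_eq_one {S : Set (HeightOneSpectrum R)} {c c' : Kˣ}
    (h : ∀ v : HeightOneSpectrum R, v ∉ S →
      count K v (spanSingleton R⁰ (c : K)) = count K v (spanSingleton R⁰ (c' : K)))
    (v : HeightOneSpectrum R) (hv : v ∉ S) : v.valuation K ((c / c' : Kˣ) : K) = 1 := by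
  rw [Units.val_div_eq_div_val, map_div₀, valuation_eq_exp_neg_count v c.ne_zero,
    valuation_eq_exp_neg_count v c'.ne_zero, h v hv]
  exact div_self (by simp)

/-- An ideal with count `0` at `v` is coprime to `v`. -/
theorem rb_sup_eq_top_of_count_eq_zero {Y : Ideal R} (hY : Y ≠ ⊥) (v : HeightOneSpectrum R)
    (h : count K v (Y : FractionalIdeal R⁰ K) = 0) : Y ⊔ v.asIdeal = ⊤ := by
  have hnle : ¬ Y ≤ v.asIdeal := by
    intro hle
    have h1 := count_mono K v (coeIdeal_ne_zero.mpr hY) (coeIdeal_le_coeIdeal K |>.mpr hle)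
    rw [count_self, h] at h1
    exact absurd h1 (by norm_num)
  by_contra hne
  have hmax : v.asIdeal.IsMaximal := v.isMaximal
  have := hmax.eq_of_le hne le_sup_right
  exact hnle (this ▸ le_sup_left)

end General

section NF

variable (F : Type*) [Field F] [NumberField F]

/-- The modulus `∏_{v ∈ S} v ^ (k + 1)`. -/
noncomputable def rbMod (S : Finset (HeightOneSpectrum (𝓞 F))) (k : ℕ) : Ideal (𝓞 F) :=
  ∏ v ∈ S, v.asIdeal ^ (k + 1)

variable {F}

theorem rbMod_ne_bot (S : Finset (HeightOneSpectrum (𝓞 F))) (k : ℕ) : rbMod F S k ≠ ⊥ := by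
  unfold rbMod
  rw [← Ideal.zero_eq_bot, Finset.prod_ne_zero_iff]
  intro v _
  exact pow_ne_zero _ v.ne_bot

theorem rbMod_le {S : Finset (HeightOneSpectrum (𝓞 F))} (k : ℕ) {v : HeightOneSpectrum (𝓞 F)}
    (hv : v ∈ S) : rbMod F S k ≤ v.asIdeal ^ (k + 1) :=
  Ideal.le_of_dvd (Finset.dvd_prod_of_mem _ hv)

theorem rbMod_ne_top {S : Finset (HeightOneSpectrum (𝓞 F))} (k : ℕ) (hS : S.Nonempty) :
    rbMod F S k ≠ ⊤ := by
  obtain ⟨v, hv⟩ := hS
  intro h
  have h1 : (⊤ : Ideal (𝓞 F)) ≤ v.asIdeal :=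
    (h ▸ rbMod_le k hv).trans (Ideal.pow_le_self (by omega))
  exact v.isPrime.ne_top (top_le_iff.mp h1)

theorem rb_sup_rbMod_eq_top {S : Finset (HeightOneSpectrum (𝓞 F))} (k : ℕ) {Y : Ideal (𝓞 F)}
    (hY : Y ≠ ⊥)
    (h : ∀ v : HeightOneSpectrum (𝓞 F), v ∈ S → count F v (Y : FractionalIdeal (𝓞 F)⁰ F) = 0) :
    Y ⊔ rbMod F S k = ⊤ := by
  unfold rbMod
  refine Ideal.sup_prod_eq_top fun v hv => ?_
  exact Ideal.sup_pow_eq_top (rb_sup_eq_top_of_count_eq_zero F hY v (h v hv))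

/-- `a ≡ 1 mod m` implies `a ∈ U_v^{(k+1)}` for all `v ∈ S`. -/
theorem rb_mem_oneModSubgroup {S : Finset (HeightOneSpectrum (𝓞 F))} (k : ℕ) {a : 𝓞 F}
    (ha : a ≠ 0) (h : a - 1 ∈ rbMod F S k) {v : HeightOneSpectrum (𝓞 F)} (hv : v ∈ S) :
    Units.mk0 (a : F) (by exact_mod_cast ha) ∈ oneModSubgroup F v k := by
  rw [mem_oneModSubgroup]
  have h1 : a - 1 ∈ v.asIdeal ^ (k + 1) := rbMod_le k hv h
  have h2 : v.intValuation (a - 1) ≤ WithZero.exp (-((k + 1 : ℕ) : ℤ)) :=
    (v.intValuation_le_pow_iff_mem _ _).mpr h1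
  have h3 : v.valuation F ((a : F) - 1) = v.intValuation (a - 1) := by
    rw [← v.valuation_of_algebraMap (K := F)]
    congr 1
  rw [Units.val_mk0, h3]
  refine lt_of_le_of_lt h2 ?_
  exact WithZero.exp_lt_exp.mpr (by push_cast; omega)


variable (F) in
open Classical in
/-- The class map: `I ↦` the class in `Fˣ ⧸ H` of any `c` with `I = (c)` away from `S`. -/
noncomputable def rbCls (S : Set (HeightOneSpectrum (𝓞 F))) (H : Subgroup Fˣ)
    (I : Ideal (𝓞 F)) : Fˣ ⧸ H :=
  if h : ∃ c : Fˣ, ∀ v : HeightOneSpectrum (𝓞 F), v ∉ S →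
      count F v (I : FractionalIdeal (𝓞 F)⁰ F) = count F v (spanSingleton (𝓞 F)⁰ (c : F))
  then QuotientGroup.mk (Classical.choose h) else 1

theorem rbCls_eq {S : Set (HeightOneSpectrum (𝓞 F))} {H : Subgroup Fˣ} (hE : sUnits F S ≤ H)
    {I : Ideal (𝓞 F)} {c : Fˣ}
    (hc : ∀ v : HeightOneSpectrum (𝓞 F), v ∉ S →
      count F v (I : FractionalIdeal (𝓞 F)⁰ F) = count F v (spanSingleton (𝓞 F)⁰ (c : F))) :
    rbCls F S H I = QuotientGroup.mk c := by
  have h : ∃ c : Fˣ, ∀ v : HeightOneSpectrum (𝓞 F), v ∉ S →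
      count F v (I : FractionalIdeal (𝓞 F)⁰ F) = count F v (spanSingleton (𝓞 F)⁰ (c : F)) :=
    ⟨c, hc⟩
  unfold rbCls
  rw [dif_pos h]
  rw [QuotientGroup.eq]
  apply hE
  rw [mem_sUnits]
  intro v hv
  have := rb_valuation_div_eq_one F (S := S) (c := c) (c' := Classical.choose h)
    (fun v hv => by rw [← hc v hv, ← Classical.choose_spec h v hv]) v hv
  rwa [div_eq_mul_inv, mul_comm] at this


theorem rb_rayClassMap {F M : Type} [Field F] [NumberField F] [Field M] [NumberField M]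
    [Algebra F M] (S : Finset (HeightOneSpectrum (𝓞 F))) (hS : S.Nonempty) (k : ℕ)
    (H : Subgroup Fˣ) (hgenF : GeneratesClassGroup F S)
    (hE : sUnits F (S : Set (HeightOneSpectrum (𝓞 F))) ≤ H) (hL : localNormsAt F M S k ≤ H)
    (hidx : H.index ≠ 0) :
    F4Ray.RayClassMap F (rbMod F S k) (Fˣ ⧸ H)
      (rbCls F (S : Set (HeightOneSpectrum (𝓞 F))) H) := by
  have hne_bot : ∀ I : Ideal (𝓞 F), I ⊔ rbMod F S k = ⊤ → I ≠ ⊥ := by
    rintro I hI rfl
    rw [bot_sup_eq] at hI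
    exact rbMod_ne_top k hS hI
  refine ⟨rbMod_ne_bot S k, ?_, ?_, ?_⟩
  · intro I J hI hJ
    have hI0 := hne_bot I hI
    have hJ0 := hne_bot J hJ
    obtain ⟨cI, hcI⟩ := rb_exists_witness F hgenF hI0
    obtain ⟨cJ, hcJ⟩ := rb_exists_witness F hgenF hJ0
    rw [rbCls_eq hE hcI, rbCls_eq hE hcJ, rbCls_eq hE (c := cI * cJ) ?_]
    · rfl
    · intro v hv
      rw [coeIdeal_mul, count_mul F v (coeIdeal_ne_zero.mpr hI0) (coeIdeal_ne_zero.mpr hJ0),
        Units.val_mul, ← spanSingleton_mul_spanSingleton,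
        count_mul F v (spanSingleton_ne_zero_iff.mpr cI.ne_zero)
          (spanSingleton_ne_zero_iff.mpr cJ.ne_zero), hcI v hv, hcJ v hv]
  · intro a ha h
    have ha' : (a : F) ≠ 0 := by exact_mod_cast ha
    rw [rbCls_eq hE (c := Units.mk0 (a : F) ha') ?_, QuotientGroup.eq_one_iff]
    · apply hL
      rw [mem_localNormsAt]
      intro v hv
      exact oneModSubgroup_le_localNormGroup v k (rb_mem_oneModSubgroup k ha h hv)
    · intro v _
      rw [coeIdeal_span_singleton, Units.val_mk0]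
  · intro g
    obtain ⟨y, rfl⟩ := QuotientGroup.mk_surjective g
    obtain ⟨a, b, hb, hy⟩ := IsFractionRing.div_surjective (A := 𝓞 F) (y : F)
    have hb0 : b ≠ 0 := nonZeroDivisors.ne_zero hb
    have hb0' : (algebraMap (𝓞 F) F b) ≠ 0 := by
      simpa using hb0
    have ha0 : a ≠ 0 := by
      rintro rfl
      rw [map_zero, zero_div] at hy
      exact y.ne_zero hy.symm
    obtain ⟨n, hn⟩ := Nat.exists_eq_succ_of_ne_zero hidx
    set a₀ : 𝓞 F := a * b ^ n with ha₀
    have ha₀0 : a₀ ≠ 0 := mul_ne_zero ha0 (pow_ne_zero _ hb0)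
    have ha₀' : (algebraMap (𝓞 F) F a₀) ≠ 0 := by
      simpa using ha₀0
    obtain ⟨X, Y, hXY, -, hX, hY⟩ := rb_split F (S : Set (HeightOneSpectrum (𝓞 F)))
      (fun _ => True) trivial (fun _ _ _ _ => trivial) (Ideal.span {a₀})
      (by simpa using ha₀0)
    have hX0 : X ≠ ⊥ := by
      rintro rfl
      rw [Ideal.bot_mul] at hXY
      exact ha₀0 (by simpa using hXY)
    have hY0 : Y ≠ ⊥ := by
      rintro rfl
      rw [Ideal.mul_bot] at hXY
      exact ha₀0 (by simpa using hXY)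
    refine ⟨Y, hY0, rb_sup_rbMod_eq_top k hY0 hY, ?_⟩
    rw [rbCls_eq hE (c := Units.mk0 (algebraMap (𝓞 F) F a₀) ha₀') ?_]
    · rw [QuotientGroup.eq]
      have hmem := H.pow_index_mem (Units.mk0 (algebraMap (𝓞 F) F b) hb0')
      have e : (Units.mk0 (algebraMap (𝓞 F) F a₀) ha₀')⁻¹ * y
          = ((Units.mk0 (algebraMap (𝓞 F) F b) hb0') ^ H.index)⁻¹ := by
        apply Units.ext
        rw [Units.val_mul, Units.val_inv_eq_inv_val, Units.val_inv_eq_inv_val,
          Units.val_pow_eq_pow_val, Units.val_mk0, Units.val_mk0, ← hy, ha₀, hn, map_mul,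
          map_pow]
        have ha0' : (algebraMap (𝓞 F) F a) ≠ 0 := by simpa using ha0
        field_simp
        exact pow_succ (algebraMap (𝓞 F) F b) n
      rw [e]
      exact H.inv_mem hmem
    · intro v hv
      have h1 : count F v ((Ideal.span {a₀} : Ideal (𝓞 F)) : FractionalIdeal (𝓞 F)⁰ F)
          = count F v (X : FractionalIdeal (𝓞 F)⁰ F) +
            count F v (Y : FractionalIdeal (𝓞 F)⁰ F) := by
        rw [hXY, coeIdeal_mul, count_mul F v (coeIdeal_ne_zero.mpr hX0)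
          (coeIdeal_ne_zero.mpr hY0)]
      rw [hX v hv, zero_add, coeIdeal_span_singleton] at h1
      rw [Units.val_mk0, h1]


end NF

section NF2

variable {F M : Type} [Field F] [NumberField F] [Field M] [NumberField M] [Algebra F M]

/-- The relative norm of a prime above `S` has count `0` away from `S`. -/
theorem rb_count_relNorm_prime (S : Set (HeightOneSpectrum (𝓞 F)))
    (w : HeightOneSpectrum (𝓞 M)) (hw : w ∈ primesAboveSet F M S)
    (v : HeightOneSpectrum (𝓞 F)) (hv : v ∉ S) :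
    count F v ((Ideal.relNorm (𝓞 F) w.asIdeal : Ideal (𝓞 F)) : FractionalIdeal (𝓞 F)⁰ F) = 0 := by
  obtain ⟨v₀, hv₀S, hv₀⟩ := hw
  have : w.asIdeal.LiesOver v₀.asIdeal := ⟨hv₀.symm⟩
  obtain ⟨s, hs⟩ := Ideal.exists_relNorm_eq_pow_of_isPrime w.asIdeal v₀.asIdeal
    (R := 𝓞 F) (S := 𝓞 M)
  have hne : v₀ ≠ v := fun h => hv (h ▸ hv₀S)
  rw [hs, coeIdeal_pow, count_pow, count_maximal_coprime F v hne, mul_zero]

/-- The count at `v ∉ S` of the relative norm only depends on the counts away from the primes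
above `S`. -/
theorem rb_count_relNorm_eq (S : Set (HeightOneSpectrum (𝓞 F))) {B B' : Ideal (𝓞 M)}
    (hB : B ≠ ⊥) (hB' : B' ≠ ⊥)
    (h : ∀ w : HeightOneSpectrum (𝓞 M), w ∉ primesAboveSet F M S →
      count M w (B : FractionalIdeal (𝓞 M)⁰ M) = count M w (B' : FractionalIdeal (𝓞 M)⁰ M))
    (v : HeightOneSpectrum (𝓞 F)) (hv : v ∉ S) :
    count F v ((Ideal.relNorm (𝓞 F) B : Ideal (𝓞 F)) : FractionalIdeal (𝓞 F)⁰ F) =
      count F v ((Ideal.relNorm (𝓞 F) B' : Ideal (𝓞 F)) : FractionalIdeal (𝓞 F)⁰ F) := by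
  set Q : Ideal (𝓞 M) → Prop := fun X => ∀ v : HeightOneSpectrum (𝓞 F), v ∉ S →
    count F v ((Ideal.relNorm (𝓞 F) X : Ideal (𝓞 F)) : FractionalIdeal (𝓞 F)⁰ F) = 0 with hQdef
  have hQ1 : Q ⊤ := by
    intro v _
    rw [Ideal.relNorm_top, coeIdeal_top, count_one]
  have hQ : ∀ w ∈ primesAboveSet F M S, ∀ X, Q X → Q (w.asIdeal * X) := by
    intro w hw X hX v hv
    by_cases hX0 : X = ⊥
    · subst hX0
      rw [Ideal.mul_bot, Ideal.relNorm_bot, coeIdeal_bot, count_zero]
    · have h1 : Ideal.relNorm (𝓞 F) w.asIdeal ≠ ⊥ := by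
        rw [Ne, Ideal.relNorm_eq_bot_iff]
        exact w.ne_bot
      have h2 : Ideal.relNorm (𝓞 F) X ≠ ⊥ := by
        rw [Ne, Ideal.relNorm_eq_bot_iff]
        exact hX0
      rw [map_mul, coeIdeal_mul, count_mul F v (coeIdeal_ne_zero.mpr h1)
        (coeIdeal_ne_zero.mpr h2), hX v hv, rb_count_relNorm_prime S w hw v hv, add_zero]
  obtain ⟨X, Y, hXY, hQX, hX, hY⟩ := rb_split M (primesAboveSet F M S) Q hQ1 hQ B hB
  obtain ⟨X', Y', hXY', hQX', hX', hY'⟩ := rb_split M (primesAboveSet F M S) Q hQ1 hQ B' hB'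
  have hX0 : X ≠ ⊥ := by
    rintro rfl
    rw [Ideal.bot_mul] at hXY
    exact hB hXY
  have hY0 : Y ≠ ⊥ := by
    rintro rfl
    rw [Ideal.mul_bot] at hXY
    exact hB hXY
  have hX'0 : X' ≠ ⊥ := by
    rintro rfl
    rw [Ideal.bot_mul] at hXY'
    exact hB' hXY'
  have hY'0 : Y' ≠ ⊥ := by
    rintro rfl
    rw [Ideal.mul_bot] at hXY'
    exact hB' hXY'
  have hYY' : Y = Y' := by
    refine rb_ideal_ext M hY0 hY'0 fun w => ?_
    by_cases hw : w ∈ primesAboveSet F M S
    · rw [hY w hw, hY' w hw]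
    · have e1 : count M w (B : FractionalIdeal (𝓞 M)⁰ M) =
          count M w (Y : FractionalIdeal (𝓞 M)⁰ M) := by
        rw [hXY, coeIdeal_mul, count_mul M w (coeIdeal_ne_zero.mpr hX0)
          (coeIdeal_ne_zero.mpr hY0), hX w hw, zero_add]
      have e2 : count M w (B' : FractionalIdeal (𝓞 M)⁰ M) =
          count M w (Y' : FractionalIdeal (𝓞 M)⁰ M) := by
        rw [hXY', coeIdeal_mul, count_mul M w (coeIdeal_ne_zero.mpr hX'0)
          (coeIdeal_ne_zero.mpr hY'0), hX' w hw, zero_add]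
      rw [← e1, ← e2, h w hw]
  have hrel : ∀ {X Y : Ideal (𝓞 M)}, X ≠ ⊥ → Y ≠ ⊥ → Q X →
      count F v ((Ideal.relNorm (𝓞 F) (X * Y) : Ideal (𝓞 F)) : FractionalIdeal (𝓞 F)⁰ F) =
      count F v ((Ideal.relNorm (𝓞 F) Y : Ideal (𝓞 F)) : FractionalIdeal (𝓞 F)⁰ F) := by
    intro X Y hX0 hY0 hQX
    have h1 : Ideal.relNorm (𝓞 F) X ≠ ⊥ := by
      rw [Ne, Ideal.relNorm_eq_bot_iff]
      exact hX0
    have h2 : Ideal.relNorm (𝓞 F) Y ≠ ⊥ := by
      rw [Ne, Ideal.relNorm_eq_bot_iff]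
      exact hY0
    rw [map_mul, coeIdeal_mul, count_mul F v (coeIdeal_ne_zero.mpr h1)
      (coeIdeal_ne_zero.mpr h2), hQX v hv, zero_add]
  rw [hXY, hXY', hrel hX0 hY0 hQX, hrel hX'0 hY'0 hQX', hYY']




theorem rb_norm_cond (S : Finset (HeightOneSpectrum (𝓞 F))) (k : ℕ) (H : Subgroup Fˣ)
    (hgenM : Subgroup.closure
      (primeClass M '' primesAboveSet F M (S : Set (HeightOneSpectrum (𝓞 F)))) = ⊤)
    (hE : sUnits F (S : Set (HeightOneSpectrum (𝓞 F))) ≤ H) (hL : localNormsAt F M S k ≤ H)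
    (A : Ideal (𝓞 M)) (hA : A ≠ ⊥) :
    rbCls F (S : Set (HeightOneSpectrum (𝓞 F))) H (Ideal.relNorm (𝓞 F) A) = 1 := by
  obtain ⟨b, hb⟩ := rb_exists_witness M hgenM hA
  obtain ⟨b₁, b₂, hb₂, hbb⟩ := IsFractionRing.div_surjective (A := 𝓞 M) (b : M)
  have hb₂0 : b₂ ≠ 0 := nonZeroDivisors.ne_zero hb₂
  have hb₂0' : (algebraMap (𝓞 M) M b₂) ≠ 0 := by simpa using hb₂0
  have hb₁0 : b₁ ≠ 0 := by
    rintro rfl
    rw [map_zero, zero_div] at hbb
    exact b.ne_zero hbb.symm
  have hb₁0' : (algebraMap (𝓞 M) M b₁) ≠ 0 := by simpa using hb₁0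
  have hmul : (b : M) * algebraMap (𝓞 M) M b₂ = algebraMap (𝓞 M) M b₁ := by
    rw [← hbb]
    field_simp
  have hs₂ : (Ideal.span {b₂} : Ideal (𝓞 M)) ≠ ⊥ := by simpa using hb₂0
  have hs₁ : (Ideal.span {b₁} : Ideal (𝓞 M)) ≠ ⊥ := by simpa using hb₁0
  have hB : A * Ideal.span {b₂} ≠ ⊥ := mul_ne_zero hA hs₂
  have key := rb_count_relNorm_eq (F := F) (M := M) (S : Set (HeightOneSpectrum (𝓞 F)))
    (B := A * Ideal.span {b₂}) (B' := Ideal.span {b₁}) hB hs₁ (by
      intro w hw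
      rw [coeIdeal_mul, count_mul M w (coeIdeal_ne_zero.mpr hA) (coeIdeal_ne_zero.mpr hs₂),
        hb w hw, coeIdeal_span_singleton, coeIdeal_span_singleton,
        ← count_mul M w (spanSingleton_ne_zero_iff.mpr b.ne_zero)
          (spanSingleton_ne_zero_iff.mpr hb₂0'), spanSingleton_mul_spanSingleton, hmul])
  rw [rbCls_eq hE (c := normUnits F M b) ?_, QuotientGroup.eq_one_iff]
  · exact hL (normUnits_mem_localNormsAt S k b)
  · intro v hv
    have h1 := key v hv
    have hr : Ideal.relNorm (𝓞 F) A ≠ ⊥ := by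
      rw [Ne, Ideal.relNorm_eq_bot_iff]
      exact hA
    have hn₂ : Algebra.norm F (algebraMap (𝓞 M) M b₂) ≠ 0 := by
      rw [Ne, Algebra.norm_eq_zero_iff]
      exact hb₂0'
    have hnb : Algebra.norm F (b : M) ≠ 0 := by
      rw [Ne, Algebra.norm_eq_zero_iff]
      exact b.ne_zero
    have hr₂ : ((Ideal.span {Algebra.intNorm (𝓞 F) (𝓞 M) b₂} : Ideal (𝓞 F)) :
        FractionalIdeal (𝓞 F)⁰ F) ≠ 0 := by
      rw [coeIdeal_span_singleton, Algebra.algebraMap_intNorm (L := M)]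
      exact spanSingleton_ne_zero_iff.mpr hn₂
    rw [map_mul, Ideal.relNorm_singleton, Ideal.relNorm_singleton, coeIdeal_mul,
      count_mul F v (coeIdeal_ne_zero.mpr hr) hr₂, coeIdeal_span_singleton,
      coeIdeal_span_singleton, Algebra.algebraMap_intNorm (L := M),
      Algebra.algebraMap_intNorm (L := M), ← hmul, map_mul,
      ← spanSingleton_mul_spanSingleton,
      count_mul F v (spanSingleton_ne_zero_iff.mpr hnb)
        (spanSingleton_ne_zero_iff.mpr hn₂)] at h1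
    have h2 := add_right_cancel h1
    rw [h2]
    rfl


end NF2

/-- **RayBridge**: the analytic second inequality with modulus gives the finite-level norm form
of the second inequality. -/
theorem secondIneqNorm_of (h : F4Ray.SecondIneqRay) : SecondIneqNorm := by
  intro F M _ _ _ _ _ _ S k H hgenF hgenM hE hL hidx
  rcases S.eq_empty_or_nonempty with hS | hS
  · subst hS
    have hH : H = ⊤ := by
      rw [eq_top_iff]
      refine le_trans ?_ hL
      intro x _
      rw [mem_localNormsAt]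
      intro v hv
      simp at hv
    rw [hH, Subgroup.index_top]
    exact Module.finrank_pos
  · have hfi : H.FiniteIndex := ⟨hidx⟩
    have hfin : Finite (Fˣ ⧸ H) := Subgroup.finite_quotient_of_finiteIndex
    letI : Fintype (Fˣ ⧸ H) := Fintype.ofFinite _
    have key := h F M (rbMod F S k) (Fˣ ⧸ H) (rbCls F (S : Set (HeightOneSpectrum (𝓞 F))) H)
      (rb_rayClassMap (M := M) S hS k H hgenF hE hL hidx)
      (fun A hA _ => rb_norm_cond S k H hgenM hE hL A hA)
    rwa [← Nat.card_eq_fintype_card, ← Subgroup.index_eq_card] at key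

end Fermat.Agent.F4G
end MergeWrap_F4_Glob_RayBridge
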