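import Mathlib
import Fermat.Agent.MU.S14.SI.TameHerbrand
import Fermat.Agent.MU.S14.SI.TameH1
import Fermat.Agent.MU.F4.Glob.NormDefs
import Fermat.Agent.MU.S14.SI.Tame
import Fermat.Agent.MU.F4.Glob.Approx
import Fermat.Agent.MU.F4.Glob.Interface
import Fermat.Agent.MU.F4.Glob.LocalProper
import Fermat.Agent.MU.F4.Glob.RayBridge
import Fermat.Agent.MU.F4.Recip.Statements
import Fermat.Agent.MU.S17.W.Final

section MergeWrap_F4_Glob_SUnitNorm -- from F4/Glob/SUnitNorm.lean

/-!
# F4 / GLOB : the norm index of the `S`-units (D1)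

For `M/F` Galois of odd prime degree `p`, unramified outside the finite set `S` which generates
the class group of `F`:  `[E_S : N E_{M,S}] * p = p ^ t`, `t` the number of primes of `S` which do
not split completely in `M`.  (Herbrand quotient `TameHerbrand` + `H¹(G, E_{M,S}) = 1`, `TameH1`.)
-/

set_option autoImplicit false

open NumberField IsDedekindDomain

namespace Fermat.Agent.F4G

open Fermat.Agent.S14SI

variable {F M : Type} [Field F] [NumberField F] [Field M] [NumberField M] [Algebra F M]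
  [IsGalois F M]

/-- A Galois extension of prime degree has a nontrivial automorphism. -/
lemma exists_gal_ne_one {p : ℕ} (hp : p.Prime) (hdeg : Module.finrank F M = p) :
    ∃ σ : M ≃ₐ[F] M, σ ≠ 1 := by
  have hcard : Nat.card (M ≃ₐ[F] M) = p := by rw [IsGalois.card_aut_eq_finrank, hdeg]
  have hfin : Finite (M ≃ₐ[F] M) :=
    Nat.finite_of_card_ne_zero (by rw [hcard]; exact hp.ne_zero)
  have : Nontrivial (M ≃ₐ[F] M) :=
    Finite.one_lt_card_iff_nontrivial.mp (by rw [hcard]; exact hp.one_lt)
  exact exists_ne 1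

/-- The norm of an `S`-unit of `M` is an `S`-unit of `F`. -/
theorem normUnits_mem_sUnits {p : ℕ} (hp : p.Prime) (hdeg : Module.finrank F M = p)
    (S : Set (HeightOneSpectrum (𝓞 F))) {z : Mˣ} (hz : z ∈ sUnits M (primesAboveSet F M S)) :
    normUnits F M z ∈ sUnits F S := by
  obtain ⟨σ, hσ⟩ := exists_gal_ne_one (F := F) (M := M) hp hdeg
  rw [← Fermat.Agent.S14TH.inclU_mem_sUnits_iff (F := F) (M := M),
    Fermat.Agent.S14TH.inclU_normUnits hp hdeg σ hσ, Fermat.Agent.Herbrand.normHom_apply]
  have hiter : ∀ i : ℕ, (Fermat.Agent.S14TH.actU σ)^[i] z ∈ sUnits M (primesAboveSet F M S) := by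
    intro i
    induction i with
    | zero => simpa using hz
    | succ i ih =>
      rw [Function.iterate_succ_apply']
      exact Fermat.Agent.S14TH.map_mem_sUnits σ S _ ih
  exact Subgroup.prod_mem _ fun i _ => hiter i

/-- `N E_{M,S} ≤ E_S`. -/
theorem map_normUnits_sUnits_le {p : ℕ} (hp : p.Prime) (hdeg : Module.finrank F M = p)
    (S : Set (HeightOneSpectrum (𝓞 F))) :
    (sUnits M (primesAboveSet F M S)).map (normUnits F M) ≤ sUnits F S := by
  rintro _ ⟨z, hz, rfl⟩
  exact normUnits_mem_sUnits hp hdeg S hz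

/-- **(D1) the norm index of the `S`-units**: `[E_S : N E_{M,S}] * p = p ^ t`. -/
theorem sUnits_norm_relIndex {p : ℕ} (hp : p.Prime) (hp2 : p ≠ 2)
    (hdeg : Module.finrank F M = p) (S : Set (HeightOneSpectrum (𝓞 F))) (hS : S.Finite)
    (hunr : ∀ w : HeightOneSpectrum (𝓞 M), w ∉ primesAboveSet F M S →
      w.asIdeal.ramificationIdx (𝓞 F) = 1)
    (hgen : Subgroup.closure (primeClass F '' S) = ⊤) :
    ((sUnits M (primesAboveSet F M S)).map (normUnits F M)).relIndex (sUnits F S) * p =
      p ^ {v | v ∈ S ∧ ¬ SplitsCompletely F M v}.ncard := by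
  obtain ⟨σ, hσ⟩ := exists_gal_ne_one (F := F) (M := M) hp hdeg
  obtain ⟨-, -, hH⟩ := tameHerbrand_uncond p F M σ S hp hp2 hdeg hσ hS
  have hH1 := tameH1 p F M σ S hp hdeg hσ hS hunr hgen
  rw [Subgroup.relIndex_eq_one.mpr hH1, mul_one] at hH
  exact hH

/-- The norm index of the `S`-units is finite. -/
theorem sUnits_norm_relIndex_ne_zero {p : ℕ} (hp : p.Prime) (hp2 : p ≠ 2)
    (hdeg : Module.finrank F M = p) (S : Set (HeightOneSpectrum (𝓞 F))) (hS : S.Finite) :
    ((sUnits M (primesAboveSet F M S)).map (normUnits F M)).relIndex (sUnits F S) ≠ 0 := by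
  obtain ⟨σ, hσ⟩ := exists_gal_ne_one (F := F) (M := M) hp hdeg
  exact (tameHerbrand_uncond p F M σ S hp hp2 hdeg hσ hS).1

/-- A finite set of primes which generates the class group and contains the ramified primes
contains a prime which does not split completely. -/
theorem exists_not_splitsCompletely {p : ℕ} (hp : p.Prime) (hp2 : p ≠ 2)
    (hdeg : Module.finrank F M = p) (S : Set (HeightOneSpectrum (𝓞 F))) (hS : S.Finite)
    (hunr : ∀ w : HeightOneSpectrum (𝓞 M), w ∉ primesAboveSet F M S →
      w.asIdeal.ramificationIdx (𝓞 F) = 1)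
    (hgen : Subgroup.closure (primeClass F '' S) = ⊤) :
    ∃ v ∈ S, ¬ SplitsCompletely F M v := by
  by_contra hcon
  simp only [not_exists, not_and, not_not] at hcon
  have h := sUnits_norm_relIndex hp hp2 hdeg S hS hunr hgen
  have hempty : {v | v ∈ S ∧ ¬ SplitsCompletely F M v} = ∅ := by
    ext v
    simp only [Set.mem_ofPred_eq, Set.mem_empty_iff_false, iff_false, not_and, not_not]
    exact hcon v
  rw [hempty, Set.ncard_empty, pow_zero] at h
  exact hp.one_lt.ne' (Nat.eq_one_of_mul_eq_one_left h)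

end Fermat.Agent.F4G
end MergeWrap_F4_Glob_SUnitNorm

section MergeWrap_F4_Glob_FirstIneq -- from F4/Glob/FirstIneq.lean

/-!
# F4 / GLOB : the first inequality at finite level (D4)

`M/F` Galois of odd prime degree `p`, unramified outside the finite set `S` of primes of `F`, which
generates the class group of `F`.  If for every `v ∈ S` which does not split completely the local
norm group `N(Mˣ) · U_v^{(k+1)}` is proper, then

    E_S · (local norms to precision `k` at all `v ∈ S`)  ≠  Fˣ,

i.e. the norm index `[C_S(F) : N C_S(M)]` is at least `p`.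

Proof: `[E_S : N E_{M,S}] = p ^ (t - 1)` (D1), `[Fˣ : L] ≥ p ^ t` for `L` the local norms at the
`t` non-split primes of `S` (chain argument + weak approximation), and `N E_{M,S} ⊆ E_S ∩ L`.
-/

set_option autoImplicit false

open NumberField IsDedekindDomain

namespace Fermat.Agent.F4G

open Fermat.Agent.S14SI

section Chain

/-- The chain argument: if every `L i`, `i ∈ R`, contains the `p`-th powers of `E` and for every
`i ∈ R` there is an element of `E` which is not in `L i` but is in all the other `L j`, then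
`p ^ |R|` divides the index in `E` of the intersection of the `L i`. -/
lemma pow_card_dvd_relIndex_finsetInf {G ι : Type*} [CommGroup G] [DecidableEq ι] {p : ℕ}
    (hp : p.Prime) (E : Subgroup G) (L : ι → Subgroup G) (R : Finset ι)
    (hpow : ∀ i ∈ R, ∀ g ∈ E, g ^ p ∈ L i)
    (hfin : (R.inf L).relIndex E ≠ 0)
    (hy : ∀ i ∈ R, ∃ y : G, y ∈ E ∧ y ∉ L i ∧ ∀ j ∈ R, j ≠ i → y ∈ L j) :
    p ^ R.card ∣ (R.inf L).relIndex E := by
  induction R using Finset.induction_on with
  | empty => simp
  | insert v R hvR ih =>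
    rw [Finset.card_insert_of_notMem hvR, Finset.inf_insert, pow_succ, mul_comm]
    rw [Finset.inf_insert] at hfin
    set W := R.inf L with hW
    rw [← Subgroup.relIndex_inf_mul_relIndex] at hfin ⊢
    have hfin1 : (L v).relIndex (W ⊓ E) ≠ 0 := left_ne_zero_of_mul hfin
    have hfin2 : W.relIndex E ≠ 0 := right_ne_zero_of_mul hfin
    refine mul_dvd_mul ?_ (ih (fun i hi => hpow i (Finset.mem_insert_of_mem hi)) hfin2 ?_)
    · obtain ⟨y, hyE, hyv, hyR⟩ := hy v (Finset.mem_insert_self v R)
      have hyW : y ∈ W := by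
        rw [hW]
        exact mem_finset_inf_subgroup.mpr fun v' hv' =>
          hyR v' (Finset.mem_insert_of_mem hv') (fun h => hvR (h ▸ hv'))
      exact prime_dvd_relIndex_of_pow_mem _ _ hp hfin1 (Subgroup.mem_inf.mpr ⟨hyW, hyE⟩) hyv
        (fun g hg => hpow v (Finset.mem_insert_self v R) g (Subgroup.mem_inf.mp hg).2)
    · intro v' hv'
      obtain ⟨y, hyE, hyv, hyR⟩ := hy v' (Finset.mem_insert_of_mem hv')
      exact ⟨y, hyE, hyv, fun v'' hv'' hne => hyR v'' (Finset.mem_insert_of_mem hv'') hne⟩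

end Chain

variable {F M : Type} [Field F] [NumberField F] [Field M] [NumberField M] [Algebra F M]

omit [NumberField M] in
/-- Independence of the local norm conditions (weak approximation): for `v ∈ R` with proper local
norm group there is an element which is not a local norm at `v` and is a local norm at all other
primes of `R`. -/
lemma exists_not_mem_localNormGroup [DecidableEq (HeightOneSpectrum (𝓞 F))]
    (R : Finset (HeightOneSpectrum (𝓞 F))) (k : ℕ)
    {v : HeightOneSpectrum (𝓞 F)} (hv : v ∈ R) (hprop : localNormGroup F M v k ≠ ⊤) :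
    ∃ y : Fˣ, y ∉ localNormGroup F M v k ∧
      ∀ v' ∈ R, v' ≠ v → y ∈ localNormGroup F M v' k := by
  obtain ⟨y₀, hy₀⟩ : ∃ y₀ : Fˣ, y₀ ∉ localNormGroup F M v k := by
    by_contra hcon
    simp only [not_exists, not_not] at hcon
    exact hprop (top_le_iff.mp fun y _ => hcon y)
  obtain ⟨y, hy⟩ := exists_approx R (fun v' => if v' = v then y₀ else 1) k
  refine ⟨y, fun hyv => hy₀ ?_, fun v' hv' hne => ?_⟩
  · have h1 := hy v hv
    simp only [if_true] at h1
    have h2 : y / y₀ ∈ localNormGroup F M v k := oneModSubgroup_le_localNormGroup v k h1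
    have h3 : y₀ = y * (y / y₀)⁻¹ := by
      rw [inv_div, mul_div_cancel]
    rw [h3]
    exact Subgroup.mul_mem _ hyv (Subgroup.inv_mem _ h2)
  · have h1 := hy v' hv'
    simp only [if_neg hne, div_one] at h1
    exact oneModSubgroup_le_localNormGroup v' k h1

/-- `p ^ |R|` divides the index of the group of local norms at `R`, if all the local norm groups
at the primes of `R` are proper (and the index is finite). -/
lemma pow_card_dvd_index_localNormsAt [FiniteDimensional F M] {p : ℕ} (hp : p.Prime)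
    (hdeg : Module.finrank F M = p) (R : Finset (HeightOneSpectrum (𝓞 F))) (k : ℕ)
    (hprop : ∀ v ∈ R, localNormGroup F M v k ≠ ⊤) (hfin : (localNormsAt F M R k).index ≠ 0) :
    p ^ R.card ∣ (localNormsAt F M R k).index := by
  classical
  rw [← Subgroup.relIndex_top_right] at hfin ⊢
  refine pow_card_dvd_relIndex_finsetInf hp ⊤ (fun v => localNormGroup F M v k) R
    (fun v _ g _ => pow_mem_localNormGroup v k hdeg g) hfin ?_
  intro v hv
  obtain ⟨y, hy1, hy2⟩ := exists_not_mem_localNormGroup (M := M) R k hv (hprop v hv)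
  exact ⟨y, Subgroup.mem_top y, hy1, hy2⟩

variable [IsGalois F M]

/-- **(D4) the first inequality at finite level**: the norm index is at least `p`. -/
theorem firstIneq_norm {p : ℕ} (hp : p.Prime) (hp2 : p ≠ 2) (hdeg : Module.finrank F M = p)
    (S : Finset (HeightOneSpectrum (𝓞 F))) (k : ℕ)
    (hunr : ∀ w : HeightOneSpectrum (𝓞 M),
      w ∉ primesAboveSet F M (S : Set (HeightOneSpectrum (𝓞 F))) →
      w.asIdeal.ramificationIdx (𝓞 F) = 1)
    (hgen : GeneratesClassGroup F S)
    (hprop : ∀ v ∈ S, ¬ SplitsCompletely F M v → localNormGroup F M v k ≠ ⊤) :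
    sUnits F (S : Set (HeightOneSpectrum (𝓞 F))) ⊔ localNormsAt F M S k ≠ ⊤ := by
  classical
  intro htop
  have : FiniteDimensional F M := by
    apply FiniteDimensional.of_finrank_pos
    rw [hdeg]; exact hp.pos
  set E := sUnits F (S : Set (HeightOneSpectrum (𝓞 F))) with hE
  set NE := (sUnits M (primesAboveSet F M (S : Set (HeightOneSpectrum (𝓞 F))))).map
    (normUnits F M) with hNE
  set T0 := S.filter (fun v => ¬ SplitsCompletely F M v) with hT0
  set W := localNormsAt F M T0 k with hW
  have hLW : localNormsAt F M S k ≤ W := fun y hy =>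
    mem_localNormsAt.mpr fun v hv => mem_localNormsAt.mp hy v (Finset.mem_filter.mp hv).1
  have hEW : E ⊔ W = ⊤ := top_le_iff.mp (htop ▸ sup_le_sup_left hLW E)
  -- D1
  have hD1 := sUnits_norm_relIndex hp hp2 hdeg (S : Set (HeightOneSpectrum (𝓞 F)))
    S.finite_toSet hunr hgen
  have ht : {v | v ∈ (S : Set (HeightOneSpectrum (𝓞 F))) ∧ ¬ SplitsCompletely F M v}.ncard
      = T0.card := by
    have : {v | v ∈ (S : Set (HeightOneSpectrum (𝓞 F))) ∧ ¬ SplitsCompletely F M v} = ↑T0 := by
      ext v
      simp [hT0]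
    rw [this, Set.ncard_coe_finset]
  rw [ht] at hD1
  have hNE0 : NE.relIndex E ≠ 0 := sUnits_norm_relIndex_ne_zero hp hp2 hdeg _ S.finite_toSet
  have hNW : NE ≤ W := by
    rintro y ⟨z, -, rfl⟩
    exact normUnits_mem_localNormsAt T0 k z
  have hdvd : W.relIndex E ∣ NE.relIndex E := Subgroup.relIndex_dvd_of_le_left E hNW
  have hWE : W.relIndex E ≠ 0 := fun h => hNE0 (by
    rw [h] at hdvd; exact zero_dvd_iff.mp hdvd)
  have hWtop : W.relIndex ⊤ = W.relIndex E := by
    rw [← hEW, Subgroup.relIndex_sup_right]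
  have hchain : p ^ T0.card ∣ W.relIndex ⊤ := by
    rw [Subgroup.relIndex_top_right]
    refine pow_card_dvd_index_localNormsAt hp hdeg T0 k
      (fun v hv => hprop v (Finset.mem_filter.mp hv).1 (Finset.mem_filter.mp hv).2) ?_
    rw [← Subgroup.relIndex_top_right, hWtop]
    exact hWE
  rw [hWtop] at hchain
  obtain ⟨j, hj⟩ := hchain.trans hdvd
  rw [hj] at hD1
  have hjp : j * p = 1 := by
    have hpos : 0 < p ^ T0.card := pow_pos hp.pos _
    apply Nat.eq_of_mul_eq_mul_left hpos
    rw [← mul_assoc, hD1, mul_one]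
  exact hp.one_lt.ne' (Nat.eq_one_of_mul_eq_one_left hjp)

end Fermat.Agent.F4G
end MergeWrap_F4_Glob_FirstIneq

section MergeWrap_F4_Glob_GroupLemmas -- from F4/Glob/GroupLemmas.lean

/-!
# F4 / GLOB : two lemmas on subgroups of abelian groups with quotient of exponent `p`
-/

set_option autoImplicit false

namespace Fermat.Agent.F4G

/-- A nonzero vector of an `𝔽_p`-vector space is detected by an additive map to `𝔽_p`. -/
lemma exists_addMonoidHom_ne_zero (p : ℕ) [Fact p.Prime] {V : Type*} [AddCommGroup V]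
    [Module (ZMod p) V] {v : V} (hv : v ≠ 0) : ∃ f : V →+ ZMod p, f v ≠ 0 := by
  obtain ⟨φ, hφ⟩ := Module.Projective.exists_dual_ne_zero (ZMod p) hv
  exact ⟨φ.toAddMonoidHom, hφ⟩

/-- If `G / A` has exponent `p` and `x ∉ A`, there is a subgroup of index `p` containing `A` and
not containing `x`. -/
lemma exists_index_prime_of_notMem {G : Type*} [CommGroup G] (A : Subgroup G) {p : ℕ}
    (hp : p.Prime) (hpow : ∀ g : G, g ^ p ∈ A) {x : G} (hx : x ∉ A) :
    ∃ H : Subgroup G, A ≤ H ∧ x ∉ H ∧ H.index = p := by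
  have : Fact p.Prime := ⟨hp⟩
  have hmod : ∀ v : Additive (G ⧸ A), p • v = 0 := by
    intro v
    obtain ⟨g, hg⟩ := QuotientGroup.mk_surjective (Additive.toMul v)
    have h1 : ((g : G ⧸ A)) ^ p = 1 := by
      rw [← QuotientGroup.mk_pow]
      exact (QuotientGroup.eq_one_iff _).mpr (hpow g)
    have h2 : v = Additive.ofMul (g : G ⧸ A) := by rw [hg]; rfl
    rw [h2, ← ofMul_pow, h1]
    rfl
  have hx0 : Additive.ofMul ((x : G ⧸ A)) ≠ 0 := by
    intro h
    have : ((x : G ⧸ A)) = 1 := h
    exact hx ((QuotientGroup.eq_one_iff x).mp this)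
  obtain ⟨φ, hφ⟩ := @exists_addMonoidHom_ne_zero p _ (Additive (G ⧸ A)) _
    (AddCommGroup.zmodModule (n := p) hmod) _ hx0
  let ψ : G →* Multiplicative (ZMod p) :=
    (AddMonoidHom.toMultiplicativeRight φ).comp (QuotientGroup.mk' A)
  have hψ : ∀ g : G, ψ g = Multiplicative.ofAdd (φ (Additive.ofMul (g : G ⧸ A))) := fun _ => rfl
  refine ⟨ψ.ker, ?_, ?_, ?_⟩
  · intro g hg
    rw [MonoidHom.mem_ker, hψ]
    have : ((g : G ⧸ A)) = 1 := (QuotientGroup.eq_one_iff g).mpr hg
    rw [this]
    have h0 : Additive.ofMul (1 : G ⧸ A) = 0 := rfl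
    rw [h0, map_zero]
    rfl
  · intro hxk
    rw [MonoidHom.mem_ker, hψ] at hxk
    exact hφ (Multiplicative.ofAdd.injective hxk)
  · rw [Subgroup.index_ker]
    have hcard : Nat.card (Multiplicative (ZMod p)) = p := by
      rw [Nat.card_eq_fintype_card, Fintype.card_multiplicative, ZMod.card]
    have hdvd : Nat.card ψ.range ∣ p := by
      have h := Subgroup.card_subgroup_dvd_card ψ.range
      exact h.trans (dvd_of_eq hcard)
    rcases (Nat.dvd_prime hp).mp hdvd with h1 | h1
    · exfalso
      have hbot : ψ.range = ⊥ := Subgroup.card_eq_one.mp h1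
      have hmem : ψ x ∈ ψ.range := ⟨x, rfl⟩
      rw [hbot, Subgroup.mem_bot, hψ] at hmem
      exact hφ (Multiplicative.ofAdd.injective hmem)
    · exact h1

/-- Two distinct subgroups of prime index `p` meet in a subgroup of index `p ^ 2`. -/
lemma index_inf_of_index_prime {G : Type*} [CommGroup G] {H₁ H₂ : Subgroup G} {p : ℕ}
    (hp : p.Prime) (h1 : H₁.index = p) (h2 : H₂.index = p) (hne : H₁ ≠ H₂) :
    (H₁ ⊓ H₂).index = p ^ 2 := by
  -- `H₁ ⊔ H₂ = ⊤`
  have hsup : H₁ ⊔ H₂ = ⊤ := by
    by_contra hcon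
    have hle : H₂ ≤ H₁ ⊔ H₂ := le_sup_right
    have hdvd : (H₁ ⊔ H₂).index ∣ H₂.index := Subgroup.index_dvd_of_le hle
    rw [h2] at hdvd
    rcases (Nat.dvd_prime hp).mp hdvd with h | h
    · exact hcon (Subgroup.index_eq_one.mp h)
    · -- then `H₂ = H₁ ⊔ H₂`, and symmetrically `H₁ = H₁ ⊔ H₂`
      have e2 : H₂ = H₁ ⊔ H₂ := by
        have := Subgroup.relIndex_mul_index hle
        rw [h, h2] at this
        have h3 : H₂.relIndex (H₁ ⊔ H₂) = 1 := by
          have hp0 := hp.pos
          exact Nat.eq_of_mul_eq_mul_right hp0 (by rw [this, one_mul])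
        exact le_antisymm hle (Subgroup.relIndex_eq_one.mp h3)
      have hle1 : H₁ ≤ H₁ ⊔ H₂ := le_sup_left
      have e1 : H₁ = H₁ ⊔ H₂ := by
        have := Subgroup.relIndex_mul_index hle1
        rw [h, h1] at this
        have h3 : H₁.relIndex (H₁ ⊔ H₂) = 1 := by
          have hp0 := hp.pos
          exact Nat.eq_of_mul_eq_mul_right hp0 (by rw [this, one_mul])
        exact le_antisymm hle1 (Subgroup.relIndex_eq_one.mp h3)
      exact hne (e1.trans e2.symm)
  have hrel : (H₁ ⊓ H₂).relIndex H₂ = p := by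
    rw [Subgroup.inf_relIndex_right, ← Subgroup.relIndex_sup_right, sup_comm, hsup,
      Subgroup.relIndex_top_right, h1]
  have := Subgroup.relIndex_mul_index (inf_le_right : H₁ ⊓ H₂ ≤ H₂)
  rw [hrel, h2] at this
  rw [← this, sq]

end Fermat.Agent.F4G
end MergeWrap_F4_Glob_GroupLemmas

section MergeWrap_F4_Glob_Hasse -- from F4/Glob/Hasse.lean

/-!
# F4 / GLOB : the norm index is `p`, and the Hasse norm theorem, at finite level (D6)

`M/F` Galois of odd prime degree `p`, unramified outside the finite set `S` of primes of `F`;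
`S` generates the class group of `F` and the primes above `S` generate the class group of `M`;
the local norm groups (precision `k`) at the non-split primes of `S` are proper.  Then, from the
second inequality `SecondIneqNorm`:

* `normIndex_eq`  : `[Fˣ : E_S · L] = p`                       (`|C_S(F) / N C_S(M)| = p`);
* `hasseNorm`     : `E_S ∩ L = N(E_{M,S})`                      (`H¹(Gal(M/F), C_S(M)) = 0`):
  an `S`-unit which is a local norm at every prime of `S` is the norm of an `S`-unit of `M`.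
-/

set_option autoImplicit false

open NumberField IsDedekindDomain

namespace Fermat.Agent.F4G

open Fermat.Agent.S14SI

variable {F M : Type} [Field F] [NumberField F] [Field M] [NumberField M] [Algebra F M]
  [IsGalois F M]

/-- **The norm index is `p`**: `[Fˣ : E_S · L] = p`. -/
theorem normIndex_eq (h2 : SecondIneqNorm) {p : ℕ} (hp : p.Prime) (hp2 : p ≠ 2)
    (hdeg : Module.finrank F M = p) (S : Finset (HeightOneSpectrum (𝓞 F))) (k : ℕ)
    (hunr : ∀ w : HeightOneSpectrum (𝓞 M),
      w ∉ primesAboveSet F M (S : Set (HeightOneSpectrum (𝓞 F))) →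
      w.asIdeal.ramificationIdx (𝓞 F) = 1)
    (hgen : GeneratesClassGroup F S)
    (hgenM : Subgroup.closure
      (primeClass M '' primesAboveSet F M (S : Set (HeightOneSpectrum (𝓞 F)))) = ⊤)
    (hprop : ∀ v ∈ S, ¬ SplitsCompletely F M v → localNormGroup F M v k ≠ ⊤) :
    (sUnits F (S : Set (HeightOneSpectrum (𝓞 F))) ⊔ localNormsAt F M S k).index = p := by
  have : FiniteDimensional F M := by
    apply FiniteDimensional.of_finrank_pos
    rw [hdeg]; exact hp.pos
  set A := sUnits F (S : Set (HeightOneSpectrum (𝓞 F))) ⊔ localNormsAt F M S k with hA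
  have hAtop : A ≠ ⊤ := firstIneq_norm hp hp2 hdeg S k hunr hgen hprop
  have hpowA : ∀ g : Fˣ, g ^ p ∈ A := fun g =>
    Subgroup.mem_sup_right (pow_mem_localNormsAt S k hdeg g)
  obtain ⟨x, hx⟩ : ∃ x : Fˣ, x ∉ A := by
    by_contra hcon
    simp only [not_exists, not_not] at hcon
    exact hAtop (top_le_iff.mp fun y _ => hcon y)
  obtain ⟨H, hAH, -, hH⟩ := exists_index_prime_of_notMem A hp hpowA hx
  have hHA : H ≤ A := by
    by_contra hcon
    obtain ⟨y, hyH, hyA⟩ := SetLike.not_le_iff_exists.mp hcon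
    obtain ⟨H', hAH', hyH', hH'⟩ := exists_index_prime_of_notMem A hp hpowA hyA
    have hne : H ≠ H' := fun h => hyH' (h ▸ hyH)
    have hidx := index_inf_of_index_prime hp hH hH' hne
    have hle := h2 F M S k (H ⊓ H') hgen hgenM
      (le_inf (le_sup_left.trans hAH) (le_sup_left.trans hAH'))
      (le_inf (le_sup_right.trans hAH) (le_sup_right.trans hAH'))
      (by rw [hidx]; exact pow_ne_zero _ hp.ne_zero)
    rw [hidx, hdeg] at hle
    have : p * p ≤ p * 1 := by rw [mul_one, ← sq]; exact hle
    have := Nat.le_of_mul_le_mul_left this hp.pos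
    exact absurd hp.one_lt (not_lt.mpr this)
  rw [le_antisymm hAH hHA]
  exact hH

/-- **The Hasse norm theorem at finite level**: an `S`-unit of `F` which is a local norm (to
precision `k`) at every prime of `S` is the norm of an `S`-unit of `M`. -/
theorem hasseNorm (h2 : SecondIneqNorm) {p : ℕ} (hp : p.Prime) (hp2 : p ≠ 2)
    (hdeg : Module.finrank F M = p) (S : Finset (HeightOneSpectrum (𝓞 F))) (k : ℕ)
    (hunr : ∀ w : HeightOneSpectrum (𝓞 M),
      w ∉ primesAboveSet F M (S : Set (HeightOneSpectrum (𝓞 F))) →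
      w.asIdeal.ramificationIdx (𝓞 F) = 1)
    (hgen : GeneratesClassGroup F S)
    (hgenM : Subgroup.closure
      (primeClass M '' primesAboveSet F M (S : Set (HeightOneSpectrum (𝓞 F)))) = ⊤)
    (hprop : ∀ v ∈ S, ¬ SplitsCompletely F M v → localNormGroup F M v k ≠ ⊤) :
    sUnits F (S : Set (HeightOneSpectrum (𝓞 F))) ⊓ localNormsAt F M S k ≤
      (sUnits M (primesAboveSet F M (S : Set (HeightOneSpectrum (𝓞 F))))).map
        (normUnits F M) := by
  classical
  have : FiniteDimensional F M := by
    apply FiniteDimensional.of_finrank_pos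
    rw [hdeg]; exact hp.pos
  set E := sUnits F (S : Set (HeightOneSpectrum (𝓞 F))) with hE
  set L := localNormsAt F M S k with hL
  set NE := (sUnits M (primesAboveSet F M (S : Set (HeightOneSpectrum (𝓞 F))))).map
    (normUnits F M) with hNE
  set T0 := S.filter (fun v => ¬ SplitsCompletely F M v) with hT0
  set W := localNormsAt F M T0 k with hW
  have hLW : L ≤ W := fun y hy =>
    mem_localNormsAt.mpr fun v hv => mem_localNormsAt.mp hy v (Finset.mem_filter.mp hv).1
  have hidx : (E ⊔ L).index = p :=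
    normIndex_eq h2 hp hp2 hdeg S k hunr hgen hgenM hprop
  -- D1
  have hD1 := sUnits_norm_relIndex hp hp2 hdeg (S : Set (HeightOneSpectrum (𝓞 F)))
    S.finite_toSet hunr hgen
  have ht : {v | v ∈ (S : Set (HeightOneSpectrum (𝓞 F))) ∧ ¬ SplitsCompletely F M v}.ncard
      = T0.card := by
    have : {v | v ∈ (S : Set (HeightOneSpectrum (𝓞 F))) ∧ ¬ SplitsCompletely F M v} = ↑T0 := by
      ext v
      simp [hT0]
    rw [this, Set.ncard_coe_finset]
  rw [ht] at hD1
  have hNE0 : NE.relIndex E ≠ 0 := sUnits_norm_relIndex_ne_zero hp hp2 hdeg _ S.finite_toSet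
  -- `NE ≤ E ⊓ L`
  have hNEE : NE ≤ E := map_normUnits_sUnits_le hp hdeg _
  have hNEL : NE ≤ L := by
    rintro y ⟨z, -, rfl⟩
    exact normUnits_mem_localNormsAt S k z
  have hNEEL : NE ≤ E ⊓ L := le_inf hNEE hNEL
  -- `b * a = [E : NE]`
  have hba : NE.relIndex (E ⊓ L) * L.relIndex E = NE.relIndex E := by
    rw [← Subgroup.inf_relIndex_left (H := E) (K := L)]
    exact Subgroup.relIndex_mul_relIndex _ _ _ hNEEL inf_le_left
  have ha0 : L.relIndex E ≠ 0 := fun h => hNE0 (by rw [← hba, h, mul_zero])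
  -- `[Fˣ : L] = a * p`
  have hLidx : L.index = L.relIndex E * p := by
    rw [← Subgroup.relIndex_mul_index (le_sup_right : L ≤ E ⊔ L), hidx,
      Subgroup.relIndex_sup_right]
  have hL0 : L.index ≠ 0 := by
    rw [hLidx]; exact mul_ne_zero ha0 hp.ne_zero
  have hWL : W.index ∣ L.index := Subgroup.index_dvd_of_le hLW
  have hW0 : W.index ≠ 0 := fun h => hL0 (by rw [h] at hWL; exact zero_dvd_iff.mp hWL)
  have hchain : p ^ T0.card ∣ W.index :=
    pow_card_dvd_index_localNormsAt hp hdeg T0 k
      (fun v hv => hprop v (Finset.mem_filter.mp hv).1 (Finset.mem_filter.mp hv).2) hW0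
  have hdvd : p ^ T0.card ∣ L.relIndex E * p := hLidx ▸ hchain.trans hWL
  rw [← hD1, ← hba] at hdvd
  -- `b * a * p ∣ a * p`, so `b = 1`
  have hb : NE.relIndex (E ⊓ L) = 1 := by
    have hap : L.relIndex E * p ≠ 0 := mul_ne_zero ha0 hp.ne_zero
    rw [mul_assoc] at hdvd
    have h1 : NE.relIndex (E ⊓ L) * (L.relIndex E * p) ∣ 1 * (L.relIndex E * p) := by
      rwa [one_mul]
    exact Nat.dvd_one.mp (Nat.dvd_of_mul_dvd_mul_right (Nat.pos_of_ne_zero hap) h1)
  exact Subgroup.relIndex_eq_one.mp hb

end Fermat.Agent.F4G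
end MergeWrap_F4_Glob_Hasse

section MergeWrap_F4_Glob_ULN -- from F4/Glob/ULN.lean

/-!
# F4 / GLOB : unramified local norms (ULN), from the two inequalities

`M/F` Galois of odd prime degree `p`, `S ⊇ Ram` a finite set of primes of `F` generating the class
group of `F` and such that the primes above `S` generate the class group of `M`; the local norm
groups `N(Mˣ) · U_v^{(k+1)}` at the non-split primes `v ∈ S` are proper.  Then the second
inequality (`normIndex_eq`) and the norm index of the `S`-units give `[Fˣ : L_S] ∣ p ^ t`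
(`t` = number of non-split primes of `S`), and the chain argument of the first inequality forces

* `localNormGroup_eq_top_of_splitsCompletely` : at a split prime `v ∈ S` every element of `Fˣ` is a
  local norm (to precision `k`);
* `unit_mem_localNormGroup` : at an inert prime `v ∈ S` every `v`-unit is a local norm.
-/

set_option autoImplicit false

open NumberField IsDedekindDomain

namespace Fermat.Agent.F4G

open Fermat.Agent.S14SI

variable {F M : Type} [Field F] [NumberField F] [Field M] [NumberField M] [Algebra F M]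
  [IsGalois F M]

/-- `[Fˣ : L_S]` divides `p ^ t`, `t` the number of non-split primes in `S`. -/
theorem index_localNormsAt_mul (h2 : SecondIneqNorm) {p : ℕ} (hp : p.Prime) (hp2 : p ≠ 2)
    (hdeg : Module.finrank F M = p) (S : Finset (HeightOneSpectrum (𝓞 F))) (k : ℕ)
    (hunr : ∀ w : HeightOneSpectrum (𝓞 M),
      w ∉ primesAboveSet F M (S : Set (HeightOneSpectrum (𝓞 F))) →
      w.asIdeal.ramificationIdx (𝓞 F) = 1)
    (hgen : GeneratesClassGroup F S)
    (hgenM : Subgroup.closure
      (primeClass M '' primesAboveSet F M (S : Set (HeightOneSpectrum (𝓞 F)))) = ⊤)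
    (hprop : ∀ v ∈ S, ¬ SplitsCompletely F M v → localNormGroup F M v k ≠ ⊤) :
    ∃ j : ℕ, (localNormsAt F M S k).index * j =
      p ^ {v | v ∈ (S : Set (HeightOneSpectrum (𝓞 F))) ∧ ¬ SplitsCompletely F M v}.ncard := by
  set E := sUnits F (S : Set (HeightOneSpectrum (𝓞 F))) with hE
  set L := localNormsAt F M S k with hL
  set NE := (sUnits M (primesAboveSet F M (S : Set (HeightOneSpectrum (𝓞 F))))).map
    (normUnits F M) with hNE
  have hidx : (E ⊔ L).index = p := normIndex_eq h2 hp hp2 hdeg S k hunr hgen hgenM hprop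
  have hD1 := sUnits_norm_relIndex hp hp2 hdeg (S : Set (HeightOneSpectrum (𝓞 F)))
    S.finite_toSet hunr hgen
  have hNL : NE ≤ L := by
    rintro y ⟨z, -, rfl⟩
    exact normUnits_mem_localNormsAt S k z
  obtain ⟨j, hj⟩ : L.relIndex E ∣ NE.relIndex E := Subgroup.relIndex_dvd_of_le_left E hNL
  have h1 : L.relIndex (E ⊔ L) = L.relIndex E := Subgroup.relIndex_sup_right E L
  have h3 : L.relIndex (E ⊔ L) * (E ⊔ L).index = L.index :=
    Subgroup.relIndex_mul_index le_sup_right
  refine ⟨j, ?_⟩
  rw [← hD1, ← h3, h1, hidx, hj]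
  ring

/-- The index of the group of local norms at `S` is finite. -/
theorem index_localNormsAt_ne_zero (h2 : SecondIneqNorm) {p : ℕ} (hp : p.Prime) (hp2 : p ≠ 2)
    (hdeg : Module.finrank F M = p) (S : Finset (HeightOneSpectrum (𝓞 F))) (k : ℕ)
    (hunr : ∀ w : HeightOneSpectrum (𝓞 M),
      w ∉ primesAboveSet F M (S : Set (HeightOneSpectrum (𝓞 F))) →
      w.asIdeal.ramificationIdx (𝓞 F) = 1)
    (hgen : GeneratesClassGroup F S)
    (hgenM : Subgroup.closure
      (primeClass M '' primesAboveSet F M (S : Set (HeightOneSpectrum (𝓞 F)))) = ⊤)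
    (hprop : ∀ v ∈ S, ¬ SplitsCompletely F M v → localNormGroup F M v k ≠ ⊤) :
    (localNormsAt F M S k).index ≠ 0 := by
  obtain ⟨j, hj⟩ := index_localNormsAt_mul h2 hp hp2 hdeg S k hunr hgen hgenM hprop
  intro h
  rw [h, zero_mul] at hj
  exact (pow_pos hp.pos _).ne' hj.symm

/-- **ULN, split case**: at a prime `v ∈ S` which splits completely every element of `Fˣ` is a
local norm to precision `k`. -/
theorem localNormGroup_eq_top_of_splitsCompletely (h2 : SecondIneqNorm) {p : ℕ} (hp : p.Prime)
    (hp2 : p ≠ 2) (hdeg : Module.finrank F M = p) (S : Finset (HeightOneSpectrum (𝓞 F))) (k : ℕ)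
    (hunr : ∀ w : HeightOneSpectrum (𝓞 M),
      w ∉ primesAboveSet F M (S : Set (HeightOneSpectrum (𝓞 F))) →
      w.asIdeal.ramificationIdx (𝓞 F) = 1)
    (hgen : GeneratesClassGroup F S)
    (hgenM : Subgroup.closure
      (primeClass M '' primesAboveSet F M (S : Set (HeightOneSpectrum (𝓞 F)))) = ⊤)
    (hprop : ∀ v ∈ S, ¬ SplitsCompletely F M v → localNormGroup F M v k ≠ ⊤)
    {v : HeightOneSpectrum (𝓞 F)} (hv : v ∈ S) (hs : SplitsCompletely F M v) :
    localNormGroup F M v k = ⊤ := by
  classical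
  have : FiniteDimensional F M := by
    apply FiniteDimensional.of_finrank_pos
    rw [hdeg]; exact hp.pos
  by_contra hne
  obtain ⟨j, hj⟩ := index_localNormsAt_mul h2 hp hp2 hdeg S k hunr hgen hgenM hprop
  have hS0 := index_localNormsAt_ne_zero h2 hp hp2 hdeg S k hunr hgen hgenM hprop
  set T0 := S.filter (fun v => ¬ SplitsCompletely F M v) with hT0
  have ht : {v | v ∈ (S : Set (HeightOneSpectrum (𝓞 F))) ∧ ¬ SplitsCompletely F M v}.ncard
      = T0.card := by
    have : {v | v ∈ (S : Set (HeightOneSpectrum (𝓞 F))) ∧ ¬ SplitsCompletely F M v} = ↑T0 := by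
      ext v
      simp [hT0]
    rw [this, Set.ncard_coe_finset]
  rw [ht] at hj
  have hv0 : v ∉ T0 := by
    simp [hT0, hs]
  set R := insert v T0 with hR
  have hRS : R ⊆ S := by
    intro v' hv'
    rcases Finset.mem_insert.mp hv' with rfl | h
    · exact hv
    · exact (Finset.mem_filter.mp h).1
  have hLR : localNormsAt F M S k ≤ localNormsAt F M R k := fun y hy =>
    mem_localNormsAt.mpr fun v' hv' => mem_localNormsAt.mp hy v' (hRS hv')
  have hdvd : (localNormsAt F M R k).index ∣ (localNormsAt F M S k).index :=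
    Subgroup.index_dvd_of_le hLR
  have hR0 : (localNormsAt F M R k).index ≠ 0 := fun h => hS0 (by
    rw [h] at hdvd; exact zero_dvd_iff.mp hdvd)
  have hpow := pow_card_dvd_index_localNormsAt hp hdeg R k (fun v' hv' => by
    rcases Finset.mem_insert.mp hv' with rfl | h
    · exact hne
    · exact hprop v' (Finset.mem_filter.mp h).1 (Finset.mem_filter.mp h).2) hR0
  rw [Finset.card_insert_of_notMem hv0] at hpow
  have h4 : p ^ (T0.card + 1) ∣ p ^ T0.card := hpow.trans (hdvd.trans ⟨j, hj.symm⟩)
  exact absurd ((Nat.pow_dvd_pow_iff_le_right hp.one_lt).mp h4) (by omega)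

/-- The valuation of a local norm at an unramified non-split prime is `exp (p * n)`. -/
lemma valuation_of_mem_localNormGroup_of_unramified {p : ℕ} (hp : p.Prime)
    (hdeg : Module.finrank F M = p) {v : HeightOneSpectrum (𝓞 F)}
    (hns : ¬ SplitsCompletely F M v) (w : HeightOneSpectrum (𝓞 M))
    (hw : primeBelow (F := F) w = v) (he : w.asIdeal.ramificationIdx (𝓞 F) = 1) {k : ℕ}
    {y : Fˣ} (hy : y ∈ localNormGroup F M v k) :
    ∃ n : ℤ, v.valuation F (y : F) = WithZero.exp ((p : ℤ) * n) := by
  obtain ⟨z, hz⟩ := mem_localNormGroup.mp hy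
  have h1 := valuation_eq_one_of_mem_oneModSubgroup hz
  have hlo : w.asIdeal.LiesOver v.asIdeal := ⟨by rw [← hw]; rfl⟩
  have h2 := td_valuation_norm' hp hdeg hns w (z : M)
  rw [Ideal.ramificationIdx'_eq_ramificationIdx v.asIdeal w.asIdeal v.ne_bot, he, pow_one] at h2
  have hwz : w.valuation M (z : M) ≠ 0 := (Valuation.ne_zero_iff _).mpr z.ne_zero
  refine ⟨WithZero.log (w.valuation M (z : M)), ?_⟩
  have hN0 : v.valuation F (Algebra.norm F (z : M)) ≠ 0 := by
    rw [h2]
    exact pow_ne_zero _ hwz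
  have h3 : v.valuation F (y : F) = v.valuation F (Algebra.norm F (z : M)) := by
    rw [Units.val_div_eq_div_val, map_div₀] at h1
    have e : ((normUnits F M z : Fˣ) : F) = Algebra.norm F (z : M) := rfl
    rw [e] at h1
    exact (div_eq_one_iff_eq hN0).mp h1
  rw [h3, h2]
  conv_lhs => rw [← WithZero.exp_log hwz]
  rw [← WithZero.exp_nsmul, nsmul_eq_mul]

/-- **ULN, inert case**: at a non-split unramified prime `v ∈ S` every `v`-unit is a local norm
to precision `k`. -/
theorem unit_mem_localNormGroup (h2 : SecondIneqNorm) {p : ℕ} (hp : p.Prime)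
    (hp2 : p ≠ 2) (hdeg : Module.finrank F M = p) (S : Finset (HeightOneSpectrum (𝓞 F))) (k : ℕ)
    (hunr : ∀ w : HeightOneSpectrum (𝓞 M),
      w ∉ primesAboveSet F M (S : Set (HeightOneSpectrum (𝓞 F))) →
      w.asIdeal.ramificationIdx (𝓞 F) = 1)
    (hgen : GeneratesClassGroup F S)
    (hgenM : Subgroup.closure
      (primeClass M '' primesAboveSet F M (S : Set (HeightOneSpectrum (𝓞 F)))) = ⊤)
    (hprop : ∀ v ∈ S, ¬ SplitsCompletely F M v → localNormGroup F M v k ≠ ⊤)
    {v : HeightOneSpectrum (𝓞 F)} (hv : v ∈ S) (hns : ¬ SplitsCompletely F M v)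
    (w : HeightOneSpectrum (𝓞 M)) (hw : primeBelow (F := F) w = v)
    (he : w.asIdeal.ramificationIdx (𝓞 F) = 1) {x : Fˣ} (hx : v.valuation F (x : F) = 1) :
    x ∈ localNormGroup F M v k := by
  classical
  have : FiniteDimensional F M := by
    apply FiniteDimensional.of_finrank_pos
    rw [hdeg]; exact hp.pos
  by_contra hxN
  obtain ⟨π, hπ⟩ := v.valuation_exists_uniformizer F
  have hπ0 : π ≠ 0 := by
    rintro rfl
    rw [map_zero] at hπ
    exact WithZero.exp_ne_zero hπ.symm
  set πu : Fˣ := Units.mk0 π hπ0 with hπu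
  set N := localNormGroup F M v k with hN
  set B1 := N ⊔ Subgroup.zpowers x with hB1
  set B2 := N ⊔ Subgroup.zpowers πu with hB2
  have hval : ∀ y ∈ N, ∃ n : ℤ, v.valuation F (y : F) = WithZero.exp ((p : ℤ) * n) :=
    fun y hy => valuation_of_mem_localNormGroup_of_unramified hp hdeg hns w hw he hy
  have hπB1 : πu ∉ B1 := by
    intro h
    obtain ⟨n, hn, c, hc, hnc⟩ := Subgroup.mem_sup.mp h
    obtain ⟨i, rfl⟩ := Subgroup.mem_zpowers_iff.mp hc
    obtain ⟨m, hm⟩ := hval n hn
    have h1 : v.valuation F (πu : F) = WithZero.exp ((p : ℤ) * m) := by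
      rw [← hnc, Units.val_mul, map_mul, hm, Units.val_zpow_eq_zpow_val, map_zpow₀, hx, one_zpow,
        mul_one]
    rw [hπu, Units.val_mk0, hπ, WithZero.exp_inj] at h1
    have h3 : (p : ℤ) ∣ 1 := ⟨-m, by linarith⟩
    have h4 : p ∣ 1 := by exact_mod_cast h3
    exact hp.one_lt.ne' (Nat.dvd_one.mp h4)
  have hxB2 : x ∉ B2 := by
    intro h
    obtain ⟨n, hn, c, hc, hnc⟩ := Subgroup.mem_sup.mp h
    obtain ⟨i, rfl⟩ := Subgroup.mem_zpowers_iff.mp hc
    obtain ⟨m, hm⟩ := hval n hn
    have h1 : v.valuation F (x : F) = WithZero.exp ((p : ℤ) * m - i) := by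
      rw [← hnc, Units.val_mul, map_mul, hm, Units.val_zpow_eq_zpow_val, map_zpow₀, hπu,
        Units.val_mk0, hπ, ← WithZero.exp_zsmul, ← WithZero.exp_add]
      congr 1
      simp only [smul_eq_mul]
      ring
    rw [hx, ← WithZero.exp_zero, WithZero.exp_inj] at h1
    have hi : i = (p : ℤ) * m := by linarith
    apply hxN
    rw [← hnc, hi]
    refine Subgroup.mul_mem _ hn ?_
    rw [mul_comm, zpow_mul, zpow_natCast]
    exact pow_mem_localNormGroup v k hdeg (πu ^ m)
  -- the family of subgroups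
  obtain ⟨j, hj⟩ := index_localNormsAt_mul h2 hp hp2 hdeg S k hunr hgen hgenM hprop
  have hS0 := index_localNormsAt_ne_zero h2 hp hp2 hdeg S k hunr hgen hgenM hprop
  set T0 := S.filter (fun v => ¬ SplitsCompletely F M v) with hT0
  have ht : {v | v ∈ (S : Set (HeightOneSpectrum (𝓞 F))) ∧ ¬ SplitsCompletely F M v}.ncard
      = T0.card := by
    have : {v | v ∈ (S : Set (HeightOneSpectrum (𝓞 F))) ∧ ¬ SplitsCompletely F M v} = ↑T0 := by
      ext v
      simp [hT0]
    rw [this, Set.ncard_coe_finset]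
  rw [ht] at hj
  have hvT0 : v ∈ T0 := Finset.mem_filter.mpr ⟨hv, hns⟩
  have hpropT : ∀ v' ∈ T0, localNormGroup F M v' k ≠ ⊤ := fun v' hv' =>
    hprop v' (Finset.mem_filter.mp hv').1 (Finset.mem_filter.mp hv').2
  set L' : Option (HeightOneSpectrum (𝓞 F)) → Subgroup Fˣ := fun o =>
    o.elim B1 (fun v' => if v' = v then B2 else localNormGroup F M v' k) with hL'
  have hL'none : L' none = B1 := rfl
  have hL'v : L' (some v) = B2 := by simp [hL']
  have hL'ne : ∀ v', v' ≠ v → L' (some v') = localNormGroup F M v' k := fun v' h => by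
    simp [hL', h]
  set R' : Finset (Option (HeightOneSpectrum (𝓞 F))) := Finset.insertNone T0 with hR'
  have hcard : R'.card = T0.card + 1 := Finset.card_insertNone T0
  have hNB1 : N ≤ B1 := le_sup_left
  have hNB2 : N ≤ B2 := le_sup_left
  -- the infimum contains the local norms at `T0`
  have hle : localNormsAt F M T0 k ≤ R'.inf L' := by
    intro y hy
    rw [mem_finset_inf_subgroup]
    intro o ho
    cases o with
    | none => exact hNB1 (mem_localNormsAt.mp hy v hvT0)
    | some v' =>
      have hv' : v' ∈ T0 := Finset.some_mem_insertNone.mp ho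
      by_cases h : v' = v
      · rw [h, hL'v]
        exact hNB2 (mem_localNormsAt.mp hy v hvT0)
      · rw [hL'ne v' h]
        exact mem_localNormsAt.mp hy v' hv'
  have hLS : localNormsAt F M S k ≤ localNormsAt F M T0 k := fun y hy =>
    mem_localNormsAt.mpr fun v' hv' => mem_localNormsAt.mp hy v' (Finset.mem_filter.mp hv').1
  have hdvd : (R'.inf L').index ∣ (localNormsAt F M S k).index :=
    Subgroup.index_dvd_of_le (hLS.trans hle)
  have hR0 : (R'.inf L').index ≠ 0 := fun h => hS0 (by
    rw [h] at hdvd; exact zero_dvd_iff.mp hdvd)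
  -- approximations
  obtain ⟨y1, hy1⟩ := exists_approx T0 (fun v' => if v' = v then πu else 1) k
  obtain ⟨y2, hy2⟩ := exists_approx T0 (fun v' => if v' = v then x else 1) k
  have hy1v : y1 / πu ∈ N := by
    have := hy1 v hvT0
    simp only [if_true] at this
    exact oneModSubgroup_le_localNormGroup v k this
  have hy2v : y2 / x ∈ N := by
    have := hy2 v hvT0
    simp only [if_true] at this
    exact oneModSubgroup_le_localNormGroup v k this
  have hy1ne : ∀ v' ∈ T0, v' ≠ v → y1 ∈ localNormGroup F M v' k := by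
    intro v' hv' hne
    have := hy1 v' hv'
    simp only [if_neg hne, div_one] at this
    exact oneModSubgroup_le_localNormGroup v' k this
  have hy2ne : ∀ v' ∈ T0, v' ≠ v → y2 ∈ localNormGroup F M v' k := by
    intro v' hv' hne
    have := hy2 v' hv'
    simp only [if_neg hne, div_one] at this
    exact oneModSubgroup_le_localNormGroup v' k this
  have hy1B2 : y1 ∈ B2 := by
    have e : y1 = y1 / πu * πu := by rw [div_mul_cancel]
    rw [e]
    exact Subgroup.mul_mem _ (hNB2 hy1v) (Subgroup.mem_sup_right (Subgroup.mem_zpowers πu))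
  have hy1B1 : y1 ∉ B1 := by
    intro h
    apply hπB1
    have e : πu = (y1 / πu)⁻¹ * y1 := by rw [inv_div, div_mul_cancel]
    rw [e]
    exact Subgroup.mul_mem _ (Subgroup.inv_mem _ (hNB1 hy1v)) h
  have hy2B1 : y2 ∈ B1 := by
    have e : y2 = y2 / x * x := by rw [div_mul_cancel]
    rw [e]
    exact Subgroup.mul_mem _ (hNB1 hy2v) (Subgroup.mem_sup_right (Subgroup.mem_zpowers x))
  have hy2B2 : y2 ∉ B2 := by
    intro h
    apply hxB2
    have e : x = (y2 / x)⁻¹ * y2 := by rw [inv_div, div_mul_cancel]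
    rw [e]
    exact Subgroup.mul_mem _ (Subgroup.inv_mem _ (hNB2 hy2v)) h
  have hchain : p ^ R'.card ∣ (R'.inf L').relIndex ⊤ := by
    refine pow_card_dvd_relIndex_finsetInf hp ⊤ L' R' ?_ ?_ ?_
    · intro o ho g _
      cases o with
      | none => exact hNB1 (pow_mem_localNormGroup v k hdeg g)
      | some v' =>
        by_cases h : v' = v
        · rw [h, hL'v]
          exact hNB2 (pow_mem_localNormGroup v k hdeg g)
        · rw [hL'ne v' h]
          exact pow_mem_localNormGroup v' k hdeg g
    · rw [Subgroup.relIndex_top_right]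
      exact hR0
    · intro o ho
      cases o with
      | none =>
        refine ⟨y1, Subgroup.mem_top _, hy1B1, ?_⟩
        intro o' ho' hne
        cases o' with
        | none => exact absurd rfl hne
        | some v' =>
          have hv' : v' ∈ T0 := Finset.some_mem_insertNone.mp ho'
          by_cases h : v' = v
          · rw [h, hL'v]
            exact hy1B2
          · rw [hL'ne v' h]
            exact hy1ne v' hv' h
      | some v₁ =>
        have hv₁ : v₁ ∈ T0 := Finset.some_mem_insertNone.mp ho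
        by_cases h₁ : v₁ = v
        · refine ⟨y2, Subgroup.mem_top _, by rw [h₁, hL'v]; exact hy2B2, ?_⟩
          intro o' ho' hne
          cases o' with
          | none => exact hy2B1
          | some v' =>
            have hv' : v' ∈ T0 := Finset.some_mem_insertNone.mp ho'
            have h : v' ≠ v := fun h => hne (by rw [h, h₁])
            rw [hL'ne v' h]
            exact hy2ne v' hv' h
        · obtain ⟨y, hyn, hyo⟩ := exists_not_mem_localNormGroup (M := M) T0 k hv₁
            (hpropT v₁ hv₁)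
          refine ⟨y, Subgroup.mem_top _, by rw [hL'ne v₁ h₁]; exact hyn, ?_⟩
          intro o' ho' hne
          have hyv : y ∈ N := hyo v hvT0 (fun h => h₁ h.symm)
          cases o' with
          | none => exact hNB1 hyv
          | some v' =>
            have hv' : v' ∈ T0 := Finset.some_mem_insertNone.mp ho'
            by_cases h : v' = v
            · rw [h, hL'v]
              exact hNB2 hyv
            · rw [hL'ne v' h]
              exact hyo v' hv' (fun h' => hne (by rw [h']))
  rw [Subgroup.relIndex_top_right, hcard] at hchain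
  have h4 : p ^ (T0.card + 1) ∣ p ^ T0.card := hchain.trans (hdvd.trans ⟨j, hj.symm⟩)
  exact absurd ((Nat.pow_dvd_pow_iff_le_right hp.one_lt).mp h4) (by omega)

end Fermat.Agent.F4G
end MergeWrap_F4_Glob_ULN

section MergeWrap_F4_Glob_FIRPrelim -- from F4/Glob/FIRPrelim.lean

/-!
# F4 / GLOB : first inequality in ray form — preliminaries

Inputs for `FirstIneqRay.lean`:

* `fir_ramificationIdx_eq_one` : `F4Rec.UnramOutside` gives ramification index `1` outside `T`;
* `fir_exists_S` : a finite `S ⊇ T` generating `Cl(F)`, whose primes above generate `Cl(M)`;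
* `fir_exists_k` : a common precision `k` for the proper local norm groups at `S`;
* `fir_dvd_count_relNorm` : at an inert prime `v`, `p ∣ ord_v (N A)`;
* `fir_count_eq_zero` : an ideal prime to `v` has `ord_v = 0`;
* `fir_exists_y` : elements `y_v` of valuation `exp (-1)` at `v`, `≡ 1` at the other primes of `S`.
-/

set_option autoImplicit false
set_option linter.unusedSectionVars false

open NumberField IsDedekindDomain FractionalIdeal
open scoped nonZeroDivisors

namespace Fermat.Agent.F4G

open Fermat.Agent.S14SI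

variable {F M : Type} [Field F] [NumberField F] [Field M] [NumberField M] [Algebra F M]

/-- `UnramOutside` in terms of ramification indices. -/
theorem fir_ramificationIdx_eq_one [IsGalois F M] {T : Finset (HeightOneSpectrum (𝓞 F))}
    (hT : F4Rec.UnramOutside F M T) (w : HeightOneSpectrum (𝓞 M))
    (hw : w ∉ primesAboveSet F M (T : Set (HeightOneSpectrum (𝓞 F)))) :
    w.asIdeal.ramificationIdx (𝓞 F) = 1 := by
  have hP : w.asIdeal.IsPrime := w.isPrime
  have hun : F4Rec.UnramAt F w.asIdeal := by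
    refine hT w.asIdeal w.isPrime w.ne_bot ?_
    intro v hv h
    exact hw ⟨v, hv, h⟩
  have hbot : Ideal.inertia (M ≃ₐ[F] M) w.asIdeal = ⊥ := by
    rw [eq_bot_iff]
    intro σ hσ
    rw [Subgroup.mem_bot]
    refine hun σ ?_
    intro x
    exact ⟨σ • x - x, hσ x, rfl⟩
  have h1 := Ideal.card_inertia_eq_ramificationIdxIn (G := M ≃ₐ[F] M)
    (w.asIdeal.under (𝓞 F)) w.asIdeal
  have h2 := Ideal.ramificationIdxIn_eq_ramificationIdx (w.asIdeal.under (𝓞 F)) w.asIdeal
    (M ≃ₐ[F] M)
  rw [← h2, ← h1, hbot]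
  exact Nat.card_unique

/-- A finite set of primes `S ⊇ T` generating the class group of `F`, such that the primes of `M`
above `S` generate the class group of `M`. -/
theorem fir_exists_S (T : Finset (HeightOneSpectrum (𝓞 F))) :
    ∃ S : Finset (HeightOneSpectrum (𝓞 F)), T ⊆ S ∧ GeneratesClassGroup F S ∧
      Subgroup.closure
        (primeClass M '' primesAboveSet F M (S : Set (HeightOneSpectrum (𝓞 F)))) = ⊤ := by
  classical
  obtain ⟨SM, -, hSM⟩ := existsGoodS M ∅
  obtain ⟨S, hBS, hS⟩ := existsGoodS F (T ∪ SM.image (primeBelow (F := F)))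
  refine ⟨S, (Finset.subset_union_left).trans hBS, hS, ?_⟩
  rw [eq_top_iff]
  have hSM' : Subgroup.closure (primeClass M '' (SM : Set (HeightOneSpectrum (𝓞 M)))) = ⊤ := hSM
  rw [← hSM']
  apply Subgroup.closure_mono
  apply Set.image_mono
  intro w hw
  rw [mem_primesAboveSet_iff]
  apply hBS
  exact Finset.mem_union_right _ (Finset.mem_image_of_mem _ hw)

/-- A common precision for the proper local norm groups. -/
theorem fir_exists_k [IsGalois F M] (hP : LocalNormProperAll) {p : ℕ} (hp : p.Prime)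
    (hp2 : p ≠ 2) (hdeg : Module.finrank F M = p) (S : Finset (HeightOneSpectrum (𝓞 F))) :
    ∃ k : ℕ, ∀ v ∈ S, ¬ SplitsCompletely F M v → localNormGroup F M v k ≠ ⊤ := by
  classical
  have h : ∀ v : HeightOneSpectrum (𝓞 F), ∃ k : ℕ,
      ¬ SplitsCompletely F M v → localNormGroup F M v k ≠ ⊤ := by
    intro v
    by_cases hv : SplitsCompletely F M v
    · exact ⟨0, fun h => absurd hv h⟩
    · obtain ⟨k, hk⟩ := hP p F M v hp hp2 hdeg hv
      exact ⟨k, fun _ => hk⟩
  choose kf hkf using h
  refine ⟨S.sup kf, fun v hv hns htop => hkf v hns ?_⟩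
  exact top_le_iff.mp (htop ▸ localNormGroup_anti v (Finset.le_sup hv))

/-- The relative norm of a prime. -/
lemma fir_relNorm_prime (w : HeightOneSpectrum (𝓞 M)) :
    Ideal.relNorm (𝓞 F) w.asIdeal =
      (primeBelow (F := F) w).asIdeal ^ (w.asIdeal.inertiaDeg (𝓞 F)) := by
  have := w.isMaximal
  have := (primeBelow (F := F) w).isMaximal
  have : w.asIdeal.LiesOver (primeBelow (F := F) w).asIdeal := ⟨rfl⟩
  exact Ideal.relNorm_eq_pow_of_isMaximal w.asIdeal (primeBelow (F := F) w).asIdeal

/-- At a non-split unramified prime `v`, `p` divides the order at `v` of the relative norm of an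
ideal. -/
theorem fir_dvd_count_relNorm [IsGalois F M] {p : ℕ} (hp : p.Prime)
    (hdeg : Module.finrank F M = p) {v : HeightOneSpectrum (𝓞 F)}
    (hns : ¬ SplitsCompletely F M v)
    (he : ∀ w : HeightOneSpectrum (𝓞 M), primeBelow (F := F) w = v →
      w.asIdeal.ramificationIdx (𝓞 F) = 1)
    (A : Ideal (𝓞 M)) (hA : A ≠ ⊥) :
    (p : ℤ) ∣ count F v ((Ideal.relNorm (𝓞 F) A : Ideal (𝓞 F)) : FractionalIdeal (𝓞 F)⁰ F) := by
  classical
  revert hA
  refine UniqueFactorizationMonoid.induction_on_prime
    (P := fun A : Ideal (𝓞 M) => A ≠ ⊥ → (p : ℤ) ∣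
      count F v ((Ideal.relNorm (𝓞 F) A : Ideal (𝓞 F)) : FractionalIdeal (𝓞 F)⁰ F)) A ?_ ?_ ?_
  · intro h
    exact absurd rfl h
  · intro x hx _
    have hx' : x = ⊤ := by
      rwa [Ideal.isUnit_iff] at hx
    subst hx'
    rw [Ideal.relNorm_top, coeIdeal_top, count_one]
    exact dvd_zero _
  · intro a P ha hP ih _
    have hP0 : P ≠ ⊥ := hP.ne_zero
    have hPprime : P.IsPrime := Ideal.isPrime_of_prime hP
    set w : HeightOneSpectrum (𝓞 M) := ⟨P, hPprime, hP0⟩ with hw
    have hrP : Ideal.relNorm (𝓞 F) P ≠ ⊥ := by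
      rw [Ne, Ideal.relNorm_eq_bot_iff]; exact hP0
    have hra : Ideal.relNorm (𝓞 F) a ≠ ⊥ := by
      rw [Ne, Ideal.relNorm_eq_bot_iff]; exact ha
    rw [map_mul, coeIdeal_mul, count_mul F v (coeIdeal_ne_zero.mpr hrP) (coeIdeal_ne_zero.mpr hra)]
    refine dvd_add ?_ (ih ha)
    have h1 : Ideal.relNorm (𝓞 F) P =
        (primeBelow (F := F) w).asIdeal ^ (w.asIdeal.inertiaDeg (𝓞 F)) := fir_relNorm_prime w
    rw [h1, coeIdeal_pow, count_pow]
    by_cases hwv : primeBelow (F := F) w = v
    · have hlo : w.asIdeal.LiesOver v.asIdeal := ⟨by rw [← hwv]; rfl⟩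
      have hef := td_ram_mul_inertia hp hdeg hns w
      rw [Ideal.ramificationIdx'_eq_ramificationIdx v.asIdeal w.asIdeal v.ne_bot, he w hwv,
        one_mul] at hef
      rw [hef]
      exact Dvd.intro _ rfl
    · rw [count_maximal_coprime F v hwv, mul_zero]
      exact dvd_zero _

omit [NumberField F] in
/-- An integral ideal prime to `v` has order `0` at `v`. -/
theorem fir_count_eq_zero {R : Type*} [CommRing R] [IsDedekindDomain R] (K : Type*) [Field K]
    [Algebra R K] [IsFractionRing R K] {I : Ideal R} (hI : I ≠ ⊥) (v : HeightOneSpectrum R)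
    (h : I ⊔ v.asIdeal = ⊤) : count K v (I : FractionalIdeal R⁰ K) = 0 := by
  classical
  by_contra hne
  rw [count_coe K v hI] at hne
  have hne' : (Associates.mk v.asIdeal).count (Associates.mk I).factors ≠ 0 := by
    exact_mod_cast hne
  have hdvd : v.asIdeal ∣ I :=
    (Associates.count_ne_zero_iff_dvd hI v.irreducible).mp hne'
  have hle : I ≤ v.asIdeal := Ideal.le_of_dvd hdvd
  rw [sup_eq_right.mpr hle] at h
  exact v.isPrime.ne_top h

/-- Elements of valuation `exp (-1)` at `v` which are `≡ 1` at the other primes of `S`. -/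
theorem fir_exists_y [DecidableEq (HeightOneSpectrum (𝓞 F))]
    (S : Finset (HeightOneSpectrum (𝓞 F))) (k : ℕ) (v : HeightOneSpectrum (𝓞 F))
    (hv : v ∈ S) :
    ∃ y : Fˣ, v.valuation F (y : F) = WithZero.exp (-1 : ℤ) ∧
      ∀ v' ∈ S, v' ≠ v → y ∈ oneModSubgroup F v' k := by
  obtain ⟨π, hπ⟩ := v.valuation_exists_uniformizer F
  have hπ0 : π ≠ 0 := by
    rintro rfl
    rw [map_zero] at hπ
    exact WithZero.exp_ne_zero hπ.symm
  obtain ⟨y, hy⟩ := exists_approx S (fun v' => if v' = v then Units.mk0 π hπ0 else 1) k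
  refine ⟨y, ?_, fun v' hv' hne => ?_⟩
  · have h1 := hy v hv
    simp only [if_true] at h1
    have h2 := valuation_eq_one_of_mem_oneModSubgroup h1
    rw [Units.val_div_eq_div_val, map_div₀, Units.val_mk0, hπ] at h2
    exact (div_eq_one_iff_eq WithZero.exp_ne_zero).mp h2
  · have h1 := hy v' hv'
    simpa only [if_neg hne, _root_.div_one] using h1

end Fermat.Agent.F4G
end MergeWrap_F4_Glob_FIRPrelim
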